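import Fermat.Agent.GalCoh.LocalEuler
import Fermat.Agent.GalCoh.GWBridge
import Fermat.Agent.GalCoh.UnrCoh
import Fermat.Agent.Local.Minkowski
import Fermat.Agent.LocalDef.Connected
import Fermat.Agent.ModField.Semistable.Chebotarev
import Fermat.Agent.JTorsion.CycloRes

/-!
# The p-part of Kronecker-Weber at one odd prime

A continuous homomorphism from the Galois group of `ℚ` to a finite abelian `p`-group, unramified
outside the odd prime `p`, is trivial on the kernel of the `p`-adic cyclotomic character: the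
abelian `p`-extensions of `ℚ` unramified outside `p` lie in `ℚ(μ_{p^∞})`.

By Minkowski a homomorphism to `ZMod p` unramified outside `p` is determined by its restriction to
inertia at `p`, and the local Euler characteristic leaves one dimension for that restriction.
-/

set_option autoImplicit false

noncomputable section

namespace FA.OpenImageJ

open FA.GalCoh

local notation "Qb" => AlgebraicClosure ℚ
local notation "GQ" => AlgebraicClosure ℚ ≃ₐ[ℚ] AlgebraicClosure ℚ

variable {p : ℕ} [hp : Fact p.Prime]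

/-- The trivial module and the cyclotomic character, paired by multiplication. -/
def kwPair (p : ℕ) [Fact p.Prime] :
    DPair LQ (cycQ p).χ (triv GQ p) (chr (cycQ p).χ) where
  β := LinearMap.mul (ZMod p) (ZMod p)
  bil g v w := by
    show v * (((cycQ p).χ g : ZMod p) * w) = ((cycQ p).χ g : ZMod p) * (v * w)
    ring
  inj_left v w h := by simpa using LinearMap.congr_fun h 1
  inj_right v w h := by simpa using LinearMap.congr_fun h 1
  fin_left := inferInstance
  fin_right := inferInstance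
  smooth_left := smooth_triv
  smooth_right := (cycQ p).smooth_chr

theorem finrank_invariants_triv_loc (q : ℕ) [Fact q.Prime] :
    Module.finrank (ZMod p)
      ↥(Representation.invariants ((triv GQ p).comp (loc q))) = 1 := by
  rw [show Representation.invariants ((triv GQ p).comp (loc q)) = ⊤ from
    eq_top_iff.2 fun v _ g => rfl, finrank_top, Module.finrank_self]

theorem finrank_invariants_chr_loc (hp2 : p ≠ 2) :
    Module.finrank (ZMod p)
      ↥(Representation.invariants ((chr (cycQ p).χ).comp (loc p))) = 0 := by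
  obtain ⟨s, hs, hsz⟩ := FA.LocalDef.exists_inertia_zeta hp.out (liesOverPrime_padicPlace p)
    (zetaQ_spec (p := p)) (m := 2) fun h => hp2 ((Nat.prime_dvd_prime_iff_eq hp.out
      Nat.prime_two).1 h)
  obtain ⟨t, rfl⟩ : s ∈ (loc p).range := by
    rw [range_loc]; exact inertiaSubgroupIn_le_decomposition _ hs
  have hne : ((cycQ p).χ (loc p t) : ZMod p) ≠ 1 := fun h => by
    have h1 := apply_zetaQ (p := p) (loc p t)
    rw [show ((ExtCitation.cycloChar p (loc p t)) : ZMod p) = 1 from h, ZMod.val_one, pow_one,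
      hsz, pow_two] at h1
    exact zetaQ_spec.ne_one hp.out.one_lt
      (mul_left_cancel₀ (zetaQ_spec.ne_zero hp.out.ne_zero) (h1.trans (mul_one _).symm))
  rw [show Representation.invariants ((chr (cycQ p).χ).comp (loc p)) = ⊥ from
    eq_bot_iff.2 fun v hv => ?_, finrank_bot]
  have h := hv t
  change ((cycQ p).χ (loc p t) : ZMod p) * v = v at h
  refine (Submodule.mem_bot _).2 ?_
  by_contra hv0
  exact hne (mul_right_cancel₀ hv0 (h.trans (one_mul v).symm))

/-- Classes unramified outside `p` form at most a line. -/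
theorem finrank_unrOutside_triv_le_one (hp2 : p ≠ 2) :
    FiniteDimensional (ZMod p) ↥(unrOutside {(⟨p, hp.out⟩ : Nat.Primes)} (triv GQ p)) ∧
    Module.finrank (ZMod p) ↥(unrOutside {(⟨p, hp.out⟩ : Nat.Primes)} (triv GQ p)) ≤ 1 := by
  let S : Finset Nat.Primes := {⟨p, hp.out⟩}
  change FiniteDimensional (ZMod p) ↥(unrOutside S (triv GQ p)) ∧
    Module.finrank (ZMod p) ↥(unrOutside S (triv GQ p)) ≤ 1
  have hunr : ∀ q : Nat.Primes, q ∉ S → UnrRep ((triv GQ p).comp (loc (q : ℕ))) :=
    fun q _ _ _ => rfl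
  have hfin1 := finite_unrOutside_of (kwPair p) hp2 S
  have hfin : FiniteDimensional (ZMod p) ↥(unrOutside S (triv GQ p)) := Module.Finite.of_finite
  have hfl := (perfectQ p (kwPair p)).fin1
  refine ⟨hfin, ?_⟩
  have hloc : Module.finrank (ZMod p) (H1 (LL p) ((triv GQ p).comp (loc p))) = 2 := by
    have h := sum_finrank_H1 (kwPair p) hp2 (S := S) (Finset.mem_singleton_self _) hunr
    let q₀ : {q // q ∈ S} := ⟨⟨p, hp.out⟩, Finset.mem_singleton_self _⟩
    have hq : ∀ q : {q // q ∈ S}, q ≠ q₀ → False := fun q hq =>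
      hq (Subtype.ext (Finset.mem_singleton.1 q.2))
    rw [Fintype.sum_eq_single q₀ fun q hq' => (hq q hq').elim,
      Fintype.sum_eq_single q₀ fun q hq' => (hq q hq').elim,
      Fintype.sum_eq_single q₀ fun q hq' => (hq q hq').elim] at h
    have h1 := finrank_invariants_triv_loc (p := p) p
    have h2 := finrank_invariants_chr_loc hp2
    have h3 := Module.finrank_self (ZMod p)
    dsimp only [q₀] at h
    omega
  set U := unrH1 ((triv GQ p).comp (loc p))
  obtain ⟨-, hU⟩ := finrank_unrH1 (ρ := (triv GQ p).comp (loc p)) (fun _ _ => rfl)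
    ((smooth_triv (L := LQ)).comp compat_loc)
  rw [finrank_invariants_triv_loc] at hU
  let Φ : ↥(unrOutside S (triv GQ p)) →ₗ[ZMod p]
      (H1 (LL p) ((triv GQ p).comp (loc p)) ⧸ U) :=
    U.mkQ ∘ₗ (resq1 p (triv GQ p)).domRestrict _
  have hΦ : Function.Injective Φ := (injective_iff_map_eq_zero _).2 fun x hx => by
    have hxp : resq1 p (triv GQ p) x.1 ∈ U := (Submodule.Quotient.mk_eq_zero _).1 hx
    obtain ⟨x, hxS⟩ := x
    obtain ⟨f, rfl⟩ := mk1_surjective x
    have hmul : ∀ g h : GQ, f.1 (g * h) = f.1 h + f.1 g := f.2.2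
    let H : Subgroup GQ :=
      { carrier := {s | f.1 s = 0}
        one_mem' := Z1.map_one f
        mul_mem' := fun {a b} (ha : f.1 a = 0) (hb : f.1 b = 0) => by
          show f.1 (a * b) = 0
          rw [hmul, ha, hb, add_zero]
        inv_mem' := fun {a} (ha : f.1 a = 0) => by
          have h2 := hmul a a⁻¹
          rw [mul_inv_cancel, Z1.map_one, ha, add_zero] at h2
          exact h2.symm }
    have : H.Normal := ⟨fun n (hn : f.1 n = 0) g => by
      show f.1 (g * n * g⁻¹) = 0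
      have h2 := hmul g g⁻¹
      rw [mul_inv_cancel, Z1.map_one] at h2
      rw [hmul, hmul, hn, zero_add]
      exact h2.symm⟩
    obtain ⟨N, ⟨E, hE, hEN⟩, hfN⟩ := f.2.1
    have := hE
    have htop := FA.Local.eq_top_of_inertia_le H E (fun σ hσ => by
      show f.1 σ = 0
      have h2 := hfN 1 σ (hEN ((IntermediateField.mem_fixingSubgroup_iff _ _).2 hσ))
      rwa [one_mul, Z1.map_one] at h2) fun q hq => by
      have := Fact.mk hq
      refine ⟨padicPlace q, liesOverPrime_padicPlace q, fun s hs => ?_⟩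
      obtain ⟨t, rfl⟩ : s ∈ (loc q).range := by
        rw [range_loc]; exact inertiaSubgroupIn_le_decomposition _ hs
      have hmem : resq1 q (triv GQ p) (mk1 LQ (triv GQ p) f) ∈
          unrH1 ((triv GQ p).comp (loc q)) := by
        rcases eq_or_ne q p with rfl | hqp
        · exact hxp
        · exact mem_unrOutside.1 hxS ⟨q, hq⟩ fun h =>
            hqp (congrArg Subtype.val (Finset.mem_singleton.1 h))
      show f.1 (loc q t) = 0
      exact apply_inertL_eq_zero_of_mem (ρ := (triv GQ p).comp (loc q)) (fun _ _ => rfl)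
        (c := mapZ1 compat_loc (Equi.res (loc q) (triv GQ p)) f)
        (by rw [← map1_mk1]; exact hmem) hs
    refine Subtype.ext ?_
    show mk1 LQ (triv GQ p) f = 0
    rw [show f = 0 from Subtype.ext (funext fun s =>
      (htop ▸ Subgroup.mem_top s : s ∈ H)), map_zero]
  have h1 := LinearMap.finrank_le_finrank_of_injective hΦ
  have h2 := U.finrank_quotient_add_finrank
  change Module.finrank (ZMod p) ↥U = 1 at hU
  omega

/-- Homomorphisms to `ZMod p` unramified outside `p` are proportional. -/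
theorem exists_eq_mul_of_unramified (hp2 : p ≠ 2) (f g : GQ →* Multiplicative (ZMod p))
    (K : IntermediateField ℚ Qb) [FiniteDimensional ℚ K]
    (hfK : ∀ σ : GQ, (∀ x ∈ K, σ x = x) → f σ = 1 ∧ g σ = 1)
    (hfu : ∀ l : ℕ, l.Prime → l ≠ p → ∀ A : ValuationSubring Qb, A.LiesOverPrime l →
      ∀ σ ∈ A.inertiaSubgroupIn ℚ, f σ = 1 ∧ g σ = 1) (hg : g ≠ 1) :
    ∃ c : ZMod p, ∀ σ, (f σ).toAdd = c * (g σ).toAdd := by
  have mk : ∀ h : GQ →* Multiplicative (ZMod p), (∀ σ : GQ, (∀ x ∈ K, σ x = x) → h σ = 1) →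
      (fun σ => (h σ).toAdd) ∈ Z1 LQ (triv GQ p) := fun h hK => by
    refine ⟨⟨K.fixingSubgroup, fixingSubgroup_mem_fieldLevels K, fun a s hs => ?_⟩, fun a b => ?_⟩
    · show (h (a * s)).toAdd = (h a).toAdd
      rw [map_mul, hK s ((IntermediateField.mem_fixingSubgroup_iff _ _).1 hs), mul_one]
    · show (h (a * b)).toAdd = (h b).toAdd + (h a).toAdd
      rw [map_mul, mul_comm, toAdd_mul]
  have mem : ∀ (h : GQ →* Multiplicative (ZMod p)) (hz : (fun σ => (h σ).toAdd) ∈ Z1 LQ (triv GQ p)),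
      (∀ l : ℕ, l.Prime → l ≠ p → ∀ A : ValuationSubring Qb, A.LiesOverPrime l →
        ∀ σ ∈ A.inertiaSubgroupIn ℚ, h σ = 1) →
      mk1 LQ (triv GQ p) ⟨_, hz⟩ ∈ unrOutside {(⟨p, hp.out⟩ : Nat.Primes)} (triv GQ p) := by
    intro h hz hu
    refine mem_unrOutside.2 fun q hq => ⟨mapZ1 compat_loc (Equi.res (loc (q : ℕ)) (triv GQ p))
      ⟨_, hz⟩, fun ι hι => ?_, (map1_mk1 compat_loc _ _).symm⟩
    show (h (loc (q : ℕ) ι)).toAdd = 0
    rw [hu q q.2 (fun e => hq (Finset.mem_singleton.2 (Subtype.ext e))) _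
      (liesOverPrime_padicPlace (q : ℕ)) _ hι, toAdd_one]
  obtain ⟨hfd, hle⟩ := finrank_unrOutside_triv_le_one hp2
  have hzf := mk f fun σ h => (hfK σ h).1
  have hzg := mk g fun σ h => (hfK σ h).2
  let F : ↥(unrOutside {(⟨p, hp.out⟩ : Nat.Primes)} (triv GQ p)) :=
    ⟨_, mem f hzf fun l h1 h2 A h3 σ h4 => (hfu l h1 h2 A h3 σ h4).1⟩
  let G : ↥(unrOutside {(⟨p, hp.out⟩ : Nat.Primes)} (triv GQ p)) :=
    ⟨_, mem g hzg fun l h1 h2 A h3 σ h4 => (hfu l h1 h2 A h3 σ h4).2⟩
  have hG : G ≠ 0 := fun h => hg (MonoidHom.ext fun σ => by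
    have h1 : (⟨_, hzg⟩ : ↥(Z1 LQ (triv GQ p))) = 0 :=
      mk1_triv_injective ((congrArg Subtype.val h).trans (map_zero _).symm)
    exact Multiplicative.toAdd.injective (congrFun (congrArg Subtype.val h1) σ))
  have hone : Module.finrank (ZMod p)
      ↥(unrOutside {(⟨p, hp.out⟩ : Nat.Primes)} (triv GQ p)) = 1 :=
    le_antisymm hle (Nat.one_le_iff_ne_zero.2 fun h =>
      hG (@Subsingleton.elim _ (Module.finrank_zero_iff.1 h) G 0))
  obtain ⟨c, hc⟩ := (finrank_eq_one_iff_of_nonzero' G hG).1 hone F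
  refine ⟨c, fun σ => ?_⟩
  have h1 : c • (⟨_, hzg⟩ : ↥(Z1 LQ (triv GQ p))) = ⟨_, hzf⟩ :=
    mk1_triv_injective ((map_smul _ _ _).trans (congrArg Subtype.val hc))
  exact (congrFun (congrArg Subtype.val h1) σ).symm

/-- A primitive root of unity of `ℚ̄` can be moved to each of its conjugates. -/
theorem exists_apply_eq_pow {M : ℕ} (hM : 0 < M) {ζ : Qb} (hζ : IsPrimitiveRoot ζ M) {a : ℕ}
    (ha : a.Coprime M) : ∃ σ : GQ, σ ζ = ζ ^ a := by
  have h : minpoly ℚ ζ = minpoly ℚ (ζ ^ a) := by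
    rw [← Polynomial.cyclotomic_eq_minpoly_rat hζ hM,
      ← Polynomial.cyclotomic_eq_minpoly_rat (hζ.pow_of_coprime a ha) hM]
  exact isConjRoot_iff_exists_algEquiv.1 h.symm |>.imp fun σ hσ => hσ

theorem cycMod_surjective (p : ℕ) [Fact p.Prime] (n : ℕ) :
    Function.Surjective (FA.ModField.cycMod p n) := fun u => by
  have : NeZero (p ^ n) := ⟨pow_ne_zero _ (Fact.out : p.Prime).ne_zero⟩
  obtain ⟨ζ, hζ⟩ := HasEnoughRootsOfUnity.exists_primitiveRoot Qb (p ^ n)
  obtain ⟨σ, hσ⟩ := exists_apply_eq_pow (NeZero.pos _) hζ (ZMod.val_coe_unit_coprime u)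
  refine ⟨σ, Units.ext ?_⟩
  rw [FA.ModField.coe_cycMod, FA.JTorsion.cycP_toZModPow]
  symm
  refine modularCyclotomicCharacter.unique Qb _ _ fun t ht => ?_
  have ht' : (t : Qb) ^ p ^ n = 1 := by
    rw [← Units.val_pow_eq_pow_val, (mem_rootsOfUnity _ t).mp ht, Units.val_one]
  obtain ⟨i, -, hi⟩ := hζ.eq_pow_of_pow_eq_one ht'
  show σ (t : Qb) = _
  rw [← hi, map_pow, hσ, ← pow_mul, ← pow_mul, mul_comm]

/-- A nontrivial finite abelian `p`-group maps onto `ZMod p`. -/
theorem exists_surjective_zmod {R : Type} [CommGroup R] [Finite R] [Nontrivial R]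
    (hR : IsPGroup p R) : ∃ φ : R →* Multiplicative (ZMod p), Function.Surjective φ := by
  obtain ⟨k, hk⟩ := IsPGroup.iff_card.1 hR
  have hk0 : k ≠ 0 := fun h => by
    have := Finite.one_lt_card (α := R)
    rw [hk, h, pow_zero] at this
    exact lt_irrefl _ this
  obtain ⟨N, hN⟩ := Sylow.exists_subgroup_card_pow_prime p (G := R) (n := k - 1)
    (by rw [hk]; exact pow_dvd_pow p (Nat.sub_le k 1))
  have hQ : Nat.card (R ⧸ N) = p := by
    have h := N.card_eq_card_quotient_mul_card_subgroup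
    rw [hN, hk, show p ^ k = p * p ^ (k - 1) by
      rw [← pow_succ', Nat.sub_add_cancel (Nat.one_le_iff_ne_zero.2 hk0)]] at h
    exact Nat.eq_of_mul_eq_mul_right (pow_pos hp.out.pos _) h.symm
  have hP : Nat.card (Multiplicative (ZMod p)) = p := by
    rw [Nat.card_congr Multiplicative.toAdd, Nat.card_zmod]
  exact ⟨(mulEquivOfPrimeCardEq hQ hP).toMonoidHom.comp (QuotientGroup.mk' N),
    (mulEquivOfPrimeCardEq hQ hP).surjective.comp (QuotientGroup.mk'_surjective N)⟩

/-- **The p-part of Kronecker-Weber at one odd prime**: a homomorphism from the Galois group of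
`ℚ` to a finite abelian `p`-group, trivial on the Galois group over a number field and unramified
outside `p`, is trivial where the `p`-adic cyclotomic character is. -/
theorem eq_one_of_cycP_eq_one_odd {p : ℕ} [Fact p.Prime] (hp2 : p ≠ 2) {M : Type} [CommGroup M]
    [Finite M] (hM : IsPGroup p M) (f : GQ →* M) (K : IntermediateField ℚ Qb)
    [FiniteDimensional ℚ K] (hK : ∀ σ : GQ, (∀ x ∈ K, σ x = x) → f σ = 1)
    (hun : ∀ l : ℕ, l.Prime → l ≠ p → ∀ A : ValuationSubring Qb, A.LiesOverPrime l →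
      ∀ σ ∈ A.inertiaSubgroupIn ℚ, f σ = 1)
    {σ : GQ} (hσ : FA.JTorsion.cycP p σ = 1) : f σ = 1 := by
  have hp : p.Prime := Fact.out
  obtain ⟨n, hn⟩ := IsPGroup.iff_card.1 hM
  -- the cyclic group of order `p ^ n` cut out by the cyclotomic character
  have : NeZero (p ^ (n + 1)) := ⟨pow_ne_zero _ hp.ne_zero⟩
  have : IsCyclic (ZMod (p ^ (n + 1)))ˣ := ZMod.isCyclic_units_of_prime_pow p hp hp2 (n + 1)
  let u : (ZMod (p ^ (n + 1)))ˣ →* (ZMod (p ^ (n + 1)))ˣ := powMonoidHom (p - 1)
  let ψ : GQ →* (u.range : Subgroup _) :=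
    u.rangeRestrict.comp (FA.ModField.cycMod p (n + 1))
  have hψs : Function.Surjective ψ :=
    (MonoidHom.rangeRestrict_surjective u).comp (cycMod_surjective p (n + 1))
  have hC : Nat.card u.range = p ^ n := by
    rw [IsCyclic.card_powMonoidHom_range, Nat.card_eq_fintype_card, ZMod.card_units_eq_totient,
      Nat.totient_prime_pow_succ hp, Nat.gcd_mul_left_left, Nat.mul_div_cancel]
    exact Nat.sub_pos_of_lt hp.one_lt
  obtain ⟨L, hLfd, hL⟩ := FA.JTorsion.exists_field_cycP p (n + 1)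
  have hψL : ∀ s : GQ, (∀ x ∈ L, s x = x) → ψ s = 1 := fun s hs => by
    rw [show ψ s = u.rangeRestrict (FA.ModField.cycMod p (n + 1) s) from rfl,
      show FA.ModField.cycMod p (n + 1) s = 1 from Units.ext (hL s hs), map_one]
  have hψ1 : ∀ s : GQ, FA.JTorsion.cycP p s = 1 → ψ s = 1 := fun s hs => by
    show u.rangeRestrict (Units.map _ (FA.JTorsion.cycP p s)) = 1
    rw [hs, map_one, map_one]
  obtain ⟨g, hg⟩ := (inferInstance : IsCyclic u.range).exists_generator
  obtain ⟨σ₀, hσ₀⟩ := hψs g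
  -- induction on the image
  suffices key : ∀ (N : ℕ) (h : GQ →* M), (∀ s : GQ, (∀ x ∈ K ⊔ L, s x = x) → h s = 1) →
      (∀ l : ℕ, l.Prime → l ≠ p → ∀ A : ValuationSubring Qb, A.LiesOverPrime l →
        ∀ s ∈ A.inertiaSubgroupIn ℚ, h s = 1) → Nat.card h.range ≤ N → h σ = 1 from
    key _ f (fun s hs => hK s fun x hx => hs x ((le_sup_left : K ≤ K ⊔ L) hx)) hun le_rfl
  intro N
  induction N with
  | zero => exact fun h _ _ hc => absurd hc (not_le.2 Nat.card_pos)
  | succ N ih =>
    intro h hK' hun' hc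
    rcases subsingleton_or_nontrivial h.range with hs | hnt
    · exact congrArg Subtype.val (Subsingleton.elim (h.rangeRestrict σ) 1)
    have hR : IsPGroup p h.range := hM.to_subgroup _
    obtain ⟨φ, hφ⟩ := exists_surjective_zmod hR
    have hn0 : n ≠ 0 := fun h0 => by
      have h1 := (Finite.one_lt_card (α := h.range)).trans_le (Subgroup.card_le_card_group _)
      rw [hn, h0, pow_zero] at h1
      exact lt_irrefl _ h1
    have : Nontrivial u.range := Finite.one_lt_card_iff_nontrivial.1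
      (hC ▸ Nat.one_lt_pow hn0 hp.one_lt)
    obtain ⟨φC, hφC⟩ := exists_surjective_zmod (p := p) (IsPGroup.of_card hC)
    have hφg : φC g ≠ 1 := fun h1 => by
      obtain ⟨y, hy⟩ := hφC (Multiplicative.ofAdd 1)
      obtain ⟨k, rfl⟩ := Subgroup.mem_zpowers_iff.1 (hg y)
      rw [map_zpow, h1, one_zpow] at hy
      exact one_ne_zero (congrArg Multiplicative.toAdd hy).symm
    have hθ : orderOf (h σ₀) ∣ orderOf g := by
      rw [orderOf_eq_card_of_forall_mem_zpowers hg, hC, ← hn]
      exact orderOf_dvd_natCard _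
    let θ : u.range →* M := monoidHomOfForallMemZpowers hg hθ
    let h' : GQ →* M := h / θ.comp ψ
    have hunψ : ∀ l : ℕ, l.Prime → l ≠ p → ∀ A : ValuationSubring Qb, A.LiesOverPrime l →
        ∀ s ∈ A.inertiaSubgroupIn ℚ, ψ s = 1 := fun l hl hlp A hA s hs =>
      hψ1 s (FA.JTorsion.cycP_inertia p hl hlp hA hs)
    have h'K : ∀ s : GQ, (∀ x ∈ K ⊔ L, s x = x) → h' s = 1 := fun s hs => by
      show h s / θ (ψ s) = 1
      rw [hK' s hs, hψL s fun x hx => hs x ((le_sup_right : L ≤ K ⊔ L) hx), map_one, div_one]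
    have h'un : ∀ l : ℕ, l.Prime → l ≠ p → ∀ A : ValuationSubring Qb, A.LiesOverPrime l →
        ∀ s ∈ A.inertiaSubgroupIn ℚ, h' s = 1 := fun l hl hlp A hA s hs => by
      show h s / θ (ψ s) = 1
      rw [hun' l hl hlp A hA s hs, hunψ l hl hlp A hA s hs, map_one, div_one]
    have hθψ : ∀ s, θ (ψ s) ∈ h.range := fun s => by
      obtain ⟨k, hk⟩ := Subgroup.mem_zpowers_iff.1 (hg (ψ s))
      rw [← hk, map_zpow, monoidHomOfForallMemZpowers_apply_gen]
      exact Subgroup.zpow_mem _ (MonoidHom.mem_range.2 ⟨σ₀, rfl⟩) k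
    have hmem : ∀ s, h' s ∈ h.range := fun s => Subgroup.div_mem _ ⟨s, rfl⟩ (hθψ s)
    have hσ₀' : h'.codRestrict h.range hmem σ₀ = 1 := Subtype.ext (by
      show h σ₀ / θ (ψ σ₀) = 1
      rw [hσ₀, monoidHomOfForallMemZpowers_apply_gen, div_self'])
    obtain ⟨c, hcc⟩ := exists_eq_mul_of_unramified hp2 (φ.comp (h'.codRestrict h.range hmem))
      (φC.comp ψ) (K ⊔ L) (fun s hs =>
        ⟨(congrArg φ (Subtype.ext (h'K s hs))).trans (map_one φ),
          (congrArg φC (hψL s fun x hx => hs x ((le_sup_right : L ≤ K ⊔ L) hx))).trans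
            (map_one φC)⟩)
      (fun l hl hlp A hA s hs =>
        ⟨(congrArg φ (Subtype.ext (h'un l hl hlp A hA s hs))).trans (map_one φ),
          (congrArg φC (hunψ l hl hlp A hA s hs)).trans (map_one φC)⟩)
      (fun h1 => hφg (by rw [← hσ₀]; exact DFunLike.congr_fun h1 σ₀))
    have hc0 : c = 0 := by
      have h1 := hcc σ₀
      simp only [MonoidHom.comp_apply, hσ₀', map_one, toAdd_one, hσ₀] at h1
      exact (mul_eq_zero.1 h1.symm).resolve_right fun h2 =>
        hφg (Multiplicative.toAdd.injective h2)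
    have hlt : h'.range < h.range := by
      refine lt_of_le_of_ne (by rintro _ ⟨s, rfl⟩; exact hmem s) fun he => ?_
      obtain ⟨y, hy⟩ := hφ (Multiplicative.ofAdd 1)
      obtain ⟨s, hs⟩ : (y : M) ∈ h'.range := he.symm ▸ y.2
      have h1 := hcc s
      rw [hc0, zero_mul, MonoidHom.comp_apply,
        show h'.codRestrict h.range hmem s = y from Subtype.ext hs, hy] at h1
      exact one_ne_zero h1
    have hlt' : Nat.card h'.range < Nat.card h.range := by
      rw [← SetLike.coe_sort_coe, ← SetLike.coe_sort_coe, Nat.card_coe_set_eq, Nat.card_coe_set_eq]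
      exact Set.ncard_lt_ncard (SetLike.coe_ssubset_coe.2 hlt) (Set.toFinite _)
    have h1 : h σ / θ (ψ σ) = 1 := ih h' h'K h'un (by omega)
    rwa [hψ1 σ hσ, map_one, div_one] at h1

end FA.OpenImageJ

end
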