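import Fermat.Agent.Two.QuadField
import Fermat.Agent.EC.S51Aux

/-!
# The square root attached to a subgroup of index two

An open subgroup of index two of the Galois group of `ℚ` fixes, and its complement negates, a
square root of a nonzero rational number.
-/

set_option autoImplicit false
set_option linter.style.haveILetI false

noncomputable section

local notation "Qb" => AlgebraicClosure ℚ
local notation "GQ" => AlgebraicClosure ℚ ≃ₐ[ℚ] AlgebraicClosure ℚ

namespace FA.IndexTwo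

/-- The square root of a rational number of a subgroup of index two. -/
theorem exists_sq_eq_rat {H : Subgroup GQ} (hH : H.index = 2) (hopen : IsOpen (H : Set GQ)) :
    ∃ (y : Qb) (q : ℚ), y ≠ 0 ∧ q ≠ 0 ∧ y ^ 2 = (q : Qb) ∧ (∀ τ ∈ H, τ y = y) ∧
      ∀ τ, τ ∉ H → τ y = -y := by
  haveI : IsGalois ℚ Qb := FA.EC.isGalois_algebraicClosure
  haveI : H.Normal := Subgroup.normal_of_index_eq_two hH
  obtain ⟨σ, hσ⟩ := SetLike.exists_not_mem_of_ne_top H (fun h => by simp [h] at hH) rfl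
  let K := IntermediateField.fixedField H
  have hK : K.fixingSubgroup = H :=
    InfiniteGalois.fixingSubgroup_fixedField ⟨H, Subgroup.isClosed_of_isOpen H hopen⟩
  obtain ⟨x, hx, hσx⟩ : ∃ x ∈ K, σ x ≠ x := by
    by_contra hcon
    push Not at hcon
    exact hσ (hK ▸ (IntermediateField.mem_fixingSubgroup_iff K σ).mpr hcon)
  have hfix : ∀ τ ∈ H, τ x = x := fun τ hτ => hx ⟨τ, hτ⟩
  set y := x - σ x with hy_def
  have hy0 : y ≠ 0 := sub_ne_zero.mpr hσx.symm
  have hHy : ∀ τ ∈ H, τ y = y := fun τ hτ => by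
    have h1 : τ (σ x) = σ x := by
      have h := hfix _ (‹H.Normal›.conj_mem τ hτ σ⁻¹)
      rw [inv_inv] at h
      calc τ (σ x) = σ ((σ⁻¹ * τ * σ) x) := (σ.apply_symm_apply _).symm
        _ = σ x := by rw [h]
    rw [hy_def, map_sub, hfix τ hτ, h1]
  have hσy : σ y = -y := by
    rw [hy_def, map_sub, show σ (σ x) = x from hfix (σ * σ)
      ((Subgroup.mul_mem_iff_of_index_two hH).mpr Iff.rfl), neg_sub]
  have hout : ∀ τ, τ ∉ H → τ y = -y := fun τ hτ => by
    have h := hHy (σ⁻¹ * τ) ((Subgroup.mul_mem_iff_of_index_two hH).mpr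
      ⟨fun h => absurd h (fun h' => hσ (inv_mem_iff.mp h')), fun h => absurd h hτ⟩)
    calc τ y = σ ((σ⁻¹ * τ) y) := (σ.apply_symm_apply _).symm
      _ = -y := by rw [h, hσy]
  have hy2 : y ^ 2 ∈ (⊥ : IntermediateField ℚ Qb) := by
    rw [← InfiniteGalois.fixedField_fixingSubgroup (⊥ : IntermediateField ℚ Qb)]
    rintro ⟨τ, -⟩
    show τ (y ^ 2) = y ^ 2
    by_cases h : τ ∈ H
    · rw [map_pow, hHy τ h]
    · rw [map_pow, hout τ h, neg_sq]
  obtain ⟨q, hq⟩ := IntermediateField.mem_bot.mp hy2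
  rw [eq_ratCast] at hq
  refine ⟨y, q, hy0, fun h => hy0 ?_, hq.symm, hHy, hout⟩
  rw [h, Rat.cast_zero, eq_comm] at hq
  exact pow_eq_zero_iff two_ne_zero |>.mp hq

end FA.IndexTwo

end
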