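import Fermat.Agent.Root.SummarySurjectiveAdelic
import Fermat.Agent.OpenImageJ.IndexTwo
import Fermat.Agent.TW.Selmer
import Mathlib.RingTheory.ZMod.UnitsCyclic
import Mathlib.GroupTheory.Sylow

/-!
# The theorem of Kronecker and Weber for `2`-groups ramified at `2` only

An abelian `2`-extension of `ℚ` unramified at every odd prime is cyclotomic: together with the
cyclotomic character its group is generated by an element acting by `5` on the roots of unity of
`2`-power order and by complex conjugation, the only real quadratic field unramified outside `2`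
being `ℚ(√2)`, on which the first element is not trivial.
-/

set_option autoImplicit false
set_option linter.unusedSectionVars false
set_option linter.style.haveILetI false

noncomputable section

open FA.JTorsion (cycP)

local notation "Qb" => AlgebraicClosure ℚ
local notation "GQ" => AlgebraicClosure ℚ ≃ₐ[ℚ] AlgebraicClosure ℚ

namespace FA.CycTwo

/-- An element multiplying the exponents of the eighth roots of unity by `5` moves `√2`. -/
theorem apply_sqrt_two {g : GQ} (hg : ∀ μ : Qb, μ ^ 8 = 1 → g μ = μ ^ 5) {s : Qb}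
    (hs : s ^ 2 = 2) : g s = -s := by
  obtain ⟨j, hj⟩ := IsAlgClosed.exists_pow_nat_eq (-1 : Qb) (n := 4) (by norm_num)
  have h8 : j ^ 8 = 1 := by rw [show 8 = 4 * 2 from rfl, pow_mul, hj]; norm_num
  have ht : (j + j ^ 7) ^ 2 = 2 := by linear_combination (2 + j ^ 6) * h8 + j ^ 2 * hj
  have hgt : g (j + j ^ 7) = -(j + j ^ 7) := by
    rw [map_add, map_pow, hg j h8]
    linear_combination (j ^ 27 + j ^ 19 + j ^ 11 + j ^ 3) * h8 + (j ^ 3 + j) * hj
  rcases sq_eq_sq_iff_eq_or_eq_neg.mp (hs.trans ht.symm) with e | e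
  · rw [e, hgt]
  · rw [e, map_neg, hgt]

/-- A square root with inertia trivial at every odd prime, fixed by complex conjugation, is
rational or a rational multiple of `√2`. -/
theorem exists_eq_rat_mul {y : Qb} {q : ℚ} (hq : q ≠ 0) (hy : y ^ 2 = (q : Qb))
    (hc : complexConjugation y = y)
    (hunr : ∀ l : ℕ, l.Prime → l ≠ 2 → ∀ A : ValuationSubring Qb, A.LiesOverPrime l →
      ∀ σ ∈ A.inertiaSubgroupIn ℚ, σ y = y) :
    ∃ r : ℚ, y = (r : Qb) ∨ ∃ s : Qb, s ^ 2 = 2 ∧ y = (r : Qb) * s := by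
  have hpos : 0 < q := by
    have h := complexEmbedding_complexConjugation y
    rw [hc] at h
    have him : (complexEmbedding y).im = 0 := Complex.conj_eq_iff_im.mp h.symm
    have hsq : complexEmbedding y ^ 2 = (q : ℂ) := by rw [← map_pow, hy, map_ratCast]
    have hre := congrArg Complex.re hsq
    simp [pow_two, Complex.mul_re, him] at hre
    have h0 : (0 : ℝ) ≤ q := hre ▸ mul_self_nonneg _
    exact lt_of_le_of_ne (by exact_mod_cast h0) hq.symm
  obtain ⟨z, hz⟩ := Int.eq_ofNat_of_zero_le (Rat.num_nonneg.mpr hpos.le)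
  have hden : (q.den : ℚ) ≠ 0 := Nat.cast_ne_zero.mpr q.den_nz
  have hm : ((z * q.den : ℕ) : ℚ) = q * (q.den : ℚ) ^ 2 := by
    push_cast
    rw [pow_two, ← mul_assoc, Rat.mul_den_eq_num, hz]
    norm_cast
  obtain ⟨a, b, hab, ha⟩ := Nat.sq_mul_squarefree (z * q.den)
  have hm0 : z * q.den ≠ 0 := fun h => by
    rw [h, Nat.cast_zero] at hm
    exact hq ((mul_eq_zero.mp hm.symm).resolve_right (pow_ne_zero 2 hden))
  have ha0 : a ≠ 0 := fun h => hm0 (by rw [← hab, h, mul_zero])
  have hb0 : b ≠ 0 := fun h => hm0 (by rw [← hab, h, zero_pow two_ne_zero, zero_mul])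
  have hqa : q = ((b : ℚ) / q.den) ^ 2 * a := by
    rw [← hab] at hm
    push_cast at hm
    field_simp
    linarith
  have hr0 : ((b : ℚ) / q.den) ≠ 0 := div_ne_zero (Nat.cast_ne_zero.mpr hb0) hden
  have ha2 : a = 1 ∨ a = 2 := by
    refine (Nat.dvd_prime Nat.prime_two).mp ?_
    rw [← Nat.prod_primeFactors_of_squarefree ha]
    have hsub : a.primeFactors ⊆ {2} := fun l hl => by
      rw [Finset.mem_singleton]
      by_contra hl2
      obtain ⟨hlp, hla, -⟩ := Nat.mem_primeFactors.mp hl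
      have := Fact.mk hlp
      obtain ⟨A, hA⟩ := FA.Deform.exists_liesOverPrime hlp
      have hev := FA.Two.even_of_sq hlp hA hq hy (hunr l hlp hl2 A hA)
      rw [hqa, padicValRat.mul (pow_ne_zero 2 hr0) (Nat.cast_ne_zero.mpr ha0),
        padicValRat.pow, padicValRat.of_nat] at hev
      have h1 : padicValNat l a = 1 := by
        refine le_antisymm ?_ (one_le_padicValNat_of_dvd ha0 hla)
        rw [← Nat.factorization_def _ hlp]
        exact (Nat.squarefree_iff_factorization_le_one ha0).mp ha l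
      rw [h1] at hev
      omega
    exact (Finset.prod_dvd_prod_of_subset _ _ _ hsub).trans (by rw [Finset.prod_singleton])
  rcases ha2 with rfl | rfl
  · have h : y ^ 2 = ((((b : ℚ) / q.den : ℚ)) : Qb) ^ 2 := by
      rw [hy, ← Rat.cast_pow]; congr 1; simpa using hqa
    rcases sq_eq_sq_iff_eq_or_eq_neg.mp h with e | e
    exacts [⟨_, Or.inl e⟩, ⟨-((b : ℚ) / q.den), Or.inl (by rw [e, Rat.cast_neg])⟩]
  · obtain ⟨s, hs⟩ := IsAlgClosed.exists_pow_nat_eq (2 : Qb) (n := 2) two_pos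
    have h : y ^ 2 = (((((b : ℚ) / q.den : ℚ)) : Qb) * s) ^ 2 := by
      rw [hy, mul_pow, hs, ← Rat.cast_pow]
      conv_lhs => rw [hqa]
      push_cast
      rfl
    rcases sq_eq_sq_iff_eq_or_eq_neg.mp h with e | e
    exacts [⟨_, Or.inr ⟨s, hs, e⟩⟩,
      ⟨-((b : ℚ) / q.den), Or.inr ⟨s, hs, by rw [e, Rat.cast_neg, neg_mul]⟩⟩]

/-- A subgroup of index two, open, containing the inertia groups at odd primes and complex
conjugation, contains no element moving `√2` as `5` does. -/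
theorem not_mem_of_index_two {H : Subgroup GQ} (hH : H.index = 2) (hopen : IsOpen (H : Set GQ))
    (hc : complexConjugation ∈ H)
    (hunr : ∀ l : ℕ, l.Prime → l ≠ 2 → ∀ A : ValuationSubring Qb, A.LiesOverPrime l →
      A.inertiaSubgroupIn ℚ ≤ H)
    {g : GQ} (hg : ∀ μ : Qb, μ ^ 8 = 1 → g μ = μ ^ 5) : g ∉ H := by
  intro hgH
  obtain ⟨σ, hσ⟩ := SetLike.exists_not_mem_of_ne_top H (fun h => by simp [h] at hH) rfl
  obtain ⟨y, q, hy0, hq0, hq, hHy, hout⟩ := FA.IndexTwo.exists_sq_eq_rat hH hopen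
  have hσy : σ y = -y := hout σ hσ
  obtain ⟨r, hr | ⟨s, hs, hr⟩⟩ := exists_eq_rat_mul hq0 hq (hHy _ hc)
    fun l hl hl2 A hA τ hτ => hHy τ (hunr l hl hl2 A hA hτ)
  · exact FA.Two.neg_ne_self hy0 (hσy.symm.trans (by rw [hr, map_ratCast]))
  · refine FA.Two.neg_ne_self hy0 (Eq.trans ?_ (hHy g hgH))
    rw [hr, map_mul, map_ratCast, apply_sqrt_two hg hs, mul_neg]

/-- **Generation**: a finite abelian `2`-quotient of Galois, unramified at the odd primes, is
generated by `g` and complex conjugation. -/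
theorem exists_eq_pow_mul_pow {G : Type*} [CommGroup G] (χ : GQ →* G)
    (hopen : IsOpen (χ.ker : Set GQ)) (h2 : ∀ σ, ∃ k, χ σ ^ 2 ^ k = 1)
    (hunr : ∀ l : ℕ, l.Prime → l ≠ 2 → ∀ A : ValuationSubring Qb, A.LiesOverPrime l →
      A.inertiaSubgroupIn ℚ ≤ χ.ker)
    {g : GQ} (hg : ∀ μ : Qb, μ ^ 8 = 1 → g μ = μ ^ 5) (σ : GQ) :
    ∃ k j : ℤ, χ σ = χ g ^ k * χ complexConjugation ^ j := by
  let S : Subgroup G := Subgroup.zpowers (χ g) ⊔ Subgroup.zpowers (χ complexConjugation)
  have hS : S.comap χ = ⊤ := by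
    haveI : Finite (GQ ⧸ χ.ker) := Subgroup.quotient_finite_of_isOpen _ hopen
    haveI hR : Finite χ.range := Finite.of_equiv _ (QuotientGroup.quotientKerEquivRange χ).toEquiv
    haveI : Finite (χ.range ⧸ S.subgroupOf χ.range) := Quotient.finite _
    have hp : IsPGroup 2 (χ.range ⧸ S.subgroupOf χ.range) := fun x => by
      obtain ⟨⟨_, τ, rfl⟩, rfl⟩ := QuotientGroup.mk_surjective x
      obtain ⟨k, hk⟩ := h2 τ
      exact ⟨k, by rw [← QuotientGroup.mk_pow, (Subtype.ext hk :
        (⟨χ τ, τ, rfl⟩ : χ.range) ^ 2 ^ k = 1), QuotientGroup.mk_one]⟩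
    obtain ⟨e, he⟩ := IsPGroup.iff_card.mp hp
    by_contra hne
    have he0 : e ≠ 0 := fun h => hne (by
      rw [h, pow_zero] at he
      rw [eq_top_iff]
      intro τ _
      have : S.subgroupOf χ.range = ⊤ := Subgroup.index_eq_one.mp he
      exact (this.symm ▸ Subgroup.mem_top (⟨χ τ, τ, rfl⟩ : χ.range) :
        (⟨χ τ, τ, rfl⟩ : χ.range) ∈ S.subgroupOf χ.range))
    obtain ⟨M, hM⟩ := Sylow.exists_subgroup_card_pow_prime 2
      (G := χ.range ⧸ S.subgroupOf χ.range) (n := e - 1)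
      (by rw [he]; exact pow_dvd_pow 2 (by omega))
    let q : GQ →* χ.range ⧸ S.subgroupOf χ.range := (QuotientGroup.mk' _).comp χ.rangeRestrict
    have hq : Function.Surjective q :=
      (QuotientGroup.mk'_surjective _).comp χ.rangeRestrict_surjective
    have hidx : (M.comap q).index = 2 := by
      rw [Subgroup.index_comap_of_surjective M hq]
      have h := M.card_mul_index
      rw [hM, he, show e = e - 1 + 1 by omega, pow_succ, Nat.add_sub_cancel] at h
      exact Nat.eq_of_mul_eq_mul_left (pow_pos two_pos _) h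
    have hker : χ.ker ≤ M.comap q := fun τ hτ => by
      have : q τ = 1 := by
        show QuotientGroup.mk (χ.rangeRestrict τ) = 1
        rw [show χ.rangeRestrict τ = 1 from Subtype.ext (MonoidHom.mem_ker.mp hτ),
          QuotientGroup.mk_one]
      rw [Subgroup.mem_comap, this]
      exact M.one_mem
    have hmem : ∀ τ, χ τ ∈ S → τ ∈ M.comap q := fun τ hτ => by
      have : q τ = 1 := (QuotientGroup.eq_one_iff _).mpr (Subgroup.mem_subgroupOf.mpr hτ)
      rw [Subgroup.mem_comap, this]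
      exact M.one_mem
    exact not_mem_of_index_two hidx (Subgroup.isOpen_mono hker hopen)
      (hmem _ (Subgroup.mem_sup_right (Subgroup.mem_zpowers _)))
      (fun l hl hl2 A hA => (hunr l hl hl2 A hA).trans hker) hg
      (hmem _ (Subgroup.mem_sup_left (Subgroup.mem_zpowers _)))
  obtain ⟨a, ⟨k, rfl⟩, b, ⟨j, rfl⟩, h⟩ :=
    Subgroup.mem_sup.mp (show χ σ ∈ S from (hS.symm ▸ Subgroup.mem_top σ : σ ∈ S.comap χ))
  exact ⟨k, j, h.symm⟩

/-- Complex conjugation is `-1` on the cyclotomic units. -/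
theorem cycP_conj : ((cycP 2 complexConjugation : ℤ_[2]ˣ) : ℤ_[2]) = -1 :=
  PadicInt.ext_of_toZModPow.mp fun n => by
    rw [FA.RT.Tate.cycP_eq_natCast (a := 2 ^ n - 1) fun μ hμ =>
      FA.TW.complexConjugation_apply_of_pow (pow_ne_zero n two_ne_zero) hμ,
      Nat.cast_sub Nat.one_le_two_pow, ZMod.natCast_self, Nat.cast_one, zero_sub, map_neg, map_one]

/-- **Kronecker and Weber at `2`**: a character with values of `2`-power order bounded by
`2 ^ n`, unramified at the odd primes, is trivial on what fixes the roots of unity of order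
`2 ^ (n + 2)`. -/
theorem eq_one_of_fix_roots {G : Type*} [CommGroup G] (χ : GQ →* G)
    (hopen : IsOpen (χ.ker : Set GQ)) {n : ℕ} (hexp : ∀ σ, χ σ ^ 2 ^ n = 1)
    (hunr : ∀ l : ℕ, l.Prime → l ≠ 2 → ∀ A : ValuationSubring Qb, A.LiesOverPrime l →
      A.inertiaSubgroupIn ℚ ≤ χ.ker)
    {σ : GQ} (hσ : ∀ μ : Qb, μ ^ 2 ^ (n + 2) = 1 → σ μ = μ) : χ σ = 1 := by
  haveI : NeZero (2 ^ (n + 2)) := ⟨pow_ne_zero _ two_ne_zero⟩
  let ω : GQ →* (ZMod (2 ^ (n + 2)))ˣ :=
    (Units.map ((PadicInt.toZModPow (n + 2)).toMonoidHom : ℤ_[2] →* _)).comp (cycP 2)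
  have hωv : ∀ τ (a : ℕ), (∀ μ : Qb, μ ^ 2 ^ (n + 2) = 1 → τ μ = μ ^ a) →
      ((ω τ : (ZMod (2 ^ (n + 2)))ˣ) : ZMod (2 ^ (n + 2))) = a := fun τ a h =>
    FA.RT.Tate.cycP_eq_natCast h
  obtain ⟨g, hg⟩ := FA.PadicImage.exists_cyclotomic_action_pow (p := 2) (n + 3) (a := 5)
    (by norm_num)
  have hg8 : ∀ μ : Qb, μ ^ 8 = 1 → g μ = μ ^ 5 := fun μ h => hg μ (by
    rw [pow_add, mul_comm, pow_mul, show (2 : ℕ) ^ 3 = 8 from rfl, h, one_pow])
  have hωg : ((ω g : (ZMod (2 ^ (n + 2)))ˣ) : ZMod (2 ^ (n + 2))) = 5 := by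
    rw [hωv g 5 fun μ h => hg μ (by rw [pow_succ, pow_mul, h, one_pow])]
    norm_num
  have hωc : ω complexConjugation = -1 := Units.ext (by
    show PadicInt.toZModPow (n + 2) _ = _
    rw [cycP_conj, map_neg, map_one, Units.val_neg, Units.val_one])
  let f : GQ →* G × (ZMod (2 ^ (n + 2)))ˣ := χ.prod ω
  have hf : IsOpen (f.ker : Set GQ) := by
    obtain ⟨L, hL, hfix⟩ := FA.JTorsion.exists_field_cycP 2 (n + 2)
    haveI := hL
    have he : f.ker = χ.ker ⊓ ω.ker := MonoidHom.ker_prod χ ω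
    have hω : IsOpen (ω.ker : Set GQ) := Subgroup.isOpen_mono (H₁ := L.fixingSubgroup)
      (fun τ hτ => MonoidHom.mem_ker.mpr (Units.ext
        (hfix τ fun a ha => (IntermediateField.mem_fixingSubgroup_iff _ _).mp hτ a ha)))
      (IntermediateField.fixingSubgroup_isOpen L)
    rw [he, Subgroup.coe_inf]
    exact hopen.inter hω
  have hcard : Nat.card (ZMod (2 ^ (n + 2)))ˣ = 2 ^ (n + 1) := by
    rw [Nat.card_eq_fintype_card, ZMod.card_units_eq_totient,
      Nat.totient_prime_pow_succ Nat.prime_two]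
    simp
  obtain ⟨k, j, hkj⟩ := exists_eq_pow_mul_pow f hf
    (fun τ => ⟨n + 1, Prod.ext
      (by show χ τ ^ 2 ^ (n + 1) = 1; rw [pow_succ, pow_mul, hexp, one_pow])
      (by rw [Prod.pow_snd, ← hcard]; exact pow_card_eq_one')⟩)
    (fun l hl hl2 A hA τ hτ => MonoidHom.mem_ker.mpr (Prod.ext
      (MonoidHom.mem_ker.mp (hunr l hl hl2 A hA hτ))
      (Units.ext (by
        show PadicInt.toZModPow (n + 2) _ = _
        rw [FA.JTorsion.cycP_inertia 2 hl hl2 hA hτ, Units.val_one, map_one]; rfl))))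
    hg8 σ
  have e1 : χ σ = χ g ^ k * χ complexConjugation ^ j := congrArg Prod.fst hkj
  have hω1 : ω σ = 1 := Units.ext (by
    rw [hωv σ 1 fun μ h => by rw [pow_one, hσ μ h], Nat.cast_one, Units.val_one])
  have e2 : (1 : (ZMod (2 ^ (n + 2)))ˣ) = ω g ^ k * (-1) ^ j := by
    rw [← hωc, ← hω1]; exact congrArg Prod.snd hkj
  -- modulo `4` the exponent of `-1` is even
  have hj : Even j := by
    by_contra hodd
    rw [(Int.not_even_iff_odd.mp hodd).neg_one_zpow] at e2
    have h4 : 4 ∣ 2 ^ (n + 2) := ⟨2 ^ n, by ring⟩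
    have hg4 : Units.map (ZMod.castHom h4 (ZMod 4)).toMonoidHom (ω g) = 1 := Units.ext (by
      show ZMod.castHom h4 (ZMod 4) _ = _
      rw [hωg, map_ofNat]; decide)
    have h := congrArg (Units.map (ZMod.castHom h4 (ZMod 4)).toMonoidHom) e2
    rw [map_one, map_mul, map_zpow, hg4, one_zpow, one_mul] at h
    have h' : (1 : ZMod 4) = -1 := (congrArg Units.val h).trans (by simp)
    exact absurd h' (by decide)
  rw [hj.neg_one_zpow, mul_one] at e2
  have hk : ((2 ^ n : ℕ) : ℤ) ∣ k := by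
    rw [← ZMod.orderOf_five n, ← hωg, orderOf_units]
    exact orderOf_dvd_iff_zpow_eq_one.mpr e2.symm
  obtain ⟨a, rfl⟩ := hk
  obtain ⟨b, rfl⟩ := hj
  have hc2 : χ complexConjugation * χ complexConjugation = 1 := by
    rw [← map_mul, complexConjugation_mul_self, map_one]
  rw [e1, zpow_mul, zpow_natCast, hexp, one_zpow, one_mul, zpow_add, ← mul_zpow, hc2, one_zpow]

end FA.CycTwo

end
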