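import Mathlib

/-!
# Powers in the principal units of `ℤ_p`
-/

set_option autoImplicit false
set_option linter.unusedSectionVars false

noncomputable section

open Matrix

namespace FA.OpenImageJ

variable {p : ℕ} [hp : Fact p.Prime]

/-- A power of `1 + a`. -/
theorem exists_one_add_pow {R : Type*} [CommRing R] (a : R) (m : ℕ) :
    ∃ w, (1 + a) ^ m = 1 + m * a + a * a * w := by
  induction m with
  | zero => exact ⟨0, by simp⟩
  | succ m ih =>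
    obtain ⟨w, hw⟩ := ih
    exact ⟨m + w + a * w, by rw [pow_succ, hw]; push_cast; ring⟩

theorem isUnit_iff_not_dvd {u : ℤ_[p]} : IsUnit u ↔ ¬ (p : ℤ_[p]) ∣ u := by
  rw [PadicInt.isUnit_iff, ← PadicInt.norm_lt_one_iff_dvd, not_lt]
  exact ⟨fun h => h.ge, fun h => le_antisymm (PadicInt.norm_le_one u) h⟩

/-- The `p ^ s`-th power of `1 + p ^ v u` is `1 + p ^ (v + s) u'`. -/
theorem exists_pow_prime_pow {v : ℕ} (hv : 2 ≤ v) {u : ℤ_[p]} (hu : IsUnit u) :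
    ∀ s : ℕ, ∃ u' : ℤ_[p], IsUnit u' ∧
      (1 + (p : ℤ_[p]) ^ v * u) ^ p ^ s = 1 + (p : ℤ_[p]) ^ (v + s) * u'
  | 0 => ⟨u, hu, by simp⟩
  | s + 1 => by
    obtain ⟨u', hu', h⟩ := exists_pow_prime_pow hv hu s
    obtain ⟨w, hw⟩ := exists_one_add_pow ((p : ℤ_[p]) ^ (v + s) * u') p
    obtain ⟨k, hk⟩ := Nat.le.dest (show 2 ≤ v + s by omega)
    refine ⟨u' + (p : ℤ_[p]) ^ (k + 1) * (u' * u' * w), ?_, ?_⟩
    · rw [isUnit_iff_not_dvd] at hu' ⊢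
      intro hd
      exact hu' ((dvd_add_left (dvd_mul_of_dvd_left (dvd_pow_self _ k.succ_ne_zero) _)).mp hd)
    · rw [pow_succ, pow_mul, h, hw, show v + (s + 1) = v + s + 1 from rfl, ← hk]
      ring

/-- A principal unit other than one. -/
theorem exists_eq_one_add {y : ℤ_[p]} (h1 : (p : ℤ_[p]) ^ 2 ∣ y - 1) (hy : y ≠ 1) :
    ∃ (v : ℕ) (u : ℤ_[p]), 2 ≤ v ∧ IsUnit u ∧ y = 1 + (p : ℤ_[p]) ^ v * u := by
  have hp0 : (p : ℤ_[p]) ≠ 0 := Nat.cast_ne_zero.mpr hp.out.ne_zero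
  have he := PadicInt.unitCoeff_spec (sub_ne_zero.mpr hy)
  refine ⟨(y - 1).valuation, PadicInt.unitCoeff (sub_ne_zero.mpr hy), ?_, Units.isUnit _,
    by linear_combination he⟩
  by_contra hlt
  obtain ⟨j, hj⟩ := Nat.le.dest (show (y - 1).valuation + 1 ≤ 2 by omega)
  obtain ⟨c, hc⟩ := h1
  refine isUnit_iff_not_dvd.mp (Units.isUnit (PadicInt.unitCoeff (sub_ne_zero.mpr hy)))
    ⟨(p : ℤ_[p]) ^ j * c, mul_left_cancel₀ (pow_ne_zero (y - 1).valuation hp0) ?_⟩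
  rw [← hj, pow_add, pow_succ] at hc
  linear_combination hc - he

/-- **No torsion** among the units congruent to one modulo `p ^ 2`. -/
theorem eq_one_of_pow_eq_one {y : ℤ_[p]} (h1 : (p : ℤ_[p]) ^ 2 ∣ y - 1) {k : ℕ} (hk : k ≠ 0)
    (h : y ^ k = 1) : y = 1 := by
  by_contra hy
  obtain ⟨v, u, hv, hu, rfl⟩ := exists_eq_one_add h1 hy
  have hp0 : (p : ℤ_[p]) ≠ 0 := Nat.cast_ne_zero.mpr hp.out.ne_zero
  obtain ⟨t, k', hk', rfl⟩ := Nat.exists_eq_pow_mul_and_not_dvd hk p hp.out.ne_one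
  obtain ⟨u', hu', hpow⟩ := exists_pow_prime_pow hv hu t
  obtain ⟨w, hw⟩ := exists_one_add_pow ((p : ℤ_[p]) ^ (v + t) * u') k'
  rw [pow_mul, hpow, hw] at h
  have h0 : (p : ℤ_[p]) ^ (v + t) * (u' * ((k' : ℤ_[p]) + (p : ℤ_[p]) ^ (v + t) * (u' * w))) = 0 := by
    linear_combination h
  have h2 := ((mul_eq_zero.mp h0).resolve_left (pow_ne_zero _ hp0))
  have h3 := (mul_eq_zero.mp h2).resolve_left hu'.ne_zero
  refine (isUnit_iff_not_dvd (u := (k' : ℤ_[p]))).mp ?_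
    ⟨-((p : ℤ_[p]) ^ (v + t - 1) * (u' * w)), ?_⟩
  · rw [PadicInt.isUnit_iff, PadicInt.norm_natCast_eq_one_iff]
    exact hp.out.coprime_iff_not_dvd.mpr hk'
  · obtain ⟨j, hj⟩ := Nat.le.dest (show 1 ≤ v + t by omega)
    rw [← hj, pow_add, pow_one] at h3
    rw [← hj, Nat.add_sub_cancel_left]
    linear_combination h3

/-- **One unit generates**: modulo every power of `p`, a unit congruent to one modulo `p ^ v` is a
power of `1 + p ^ v u`. -/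
theorem exists_pow_congr {v : ℕ} (hv : 2 ≤ v) {u : ℤ_[p]} (hu : IsUnit u) {z : ℤ_[p]}
    (hz : (p : ℤ_[p]) ^ v ∣ z - 1) :
    ∀ s : ℕ, ∃ i : ℕ, (p : ℤ_[p]) ^ (v + s) ∣ (1 + (p : ℤ_[p]) ^ v * u) ^ i - z
  | 0 => ⟨0, by rw [pow_zero, add_zero, ← neg_sub]; exact dvd_neg.mpr hz⟩
  | s + 1 => by
    obtain ⟨i, c, hc⟩ := exists_pow_congr hv hu hz s
    obtain ⟨u', hu', hpow⟩ := exists_pow_prime_pow hv hu s
    set x := 1 + (p : ℤ_[p]) ^ v * u with hx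
    have hxu : IsUnit (x ^ i) := IsUnit.pow i (isUnit_iff_not_dvd.mpr fun hd =>
      PadicInt.prime_p.not_dvd_one ((dvd_add_left
        (dvd_mul_of_dvd_left (dvd_pow_self _ (by omega)) u)).mp hd))
    obtain ⟨r, hr⟩ := (hxu.mul hu').exists_right_inv
    obtain ⟨t, ht⟩ : ∃ t : ℕ, (p : ℤ_[p]) ∣ (t : ℤ_[p]) - (-c * r) := by
      have : NeZero (p ^ 1) := ⟨pow_ne_zero _ hp.out.ne_zero⟩
      refine ⟨(PadicInt.toZModPow 1 (-c * r)).val, ?_⟩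
      rw [← Ideal.mem_span_singleton, ← pow_one (p : ℤ_[p]), ← PadicInt.ker_toZModPow,
        RingHom.mem_ker, map_sub, map_natCast, ZMod.natCast_zmod_val, sub_self]
    obtain ⟨d, hd⟩ := ht
    obtain ⟨w, hw⟩ := exists_one_add_pow ((p : ℤ_[p]) ^ (v + s) * u') t
    obtain ⟨j, hj⟩ := Nat.le.dest (show 1 ≤ v + s by omega)
    refine ⟨i + p ^ s * t, x ^ i * u' * d + (p : ℤ_[p]) ^ j * (x ^ i * (u' * u' * w)), ?_⟩
    rw [pow_add x, pow_mul, hpow, hw, show v + (s + 1) = v + s + 1 from rfl,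
      pow_succ (p : ℤ_[p]) (v + s)]
    rw [← hj] at hc ⊢
    linear_combination hc + (x ^ i * u' * (p : ℤ_[p]) ^ (1 + j)) * hd - c * (p : ℤ_[p]) ^ (1 + j) * hr

end FA.OpenImageJ

end
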