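import Fermat.Agent.JTorsion.CycloRes
import Fermat.Agent.Local.Minkowski
import Fermat.Agent.OpenImageJ.PadicArith

/-!
# Characters into the principal units

A character with values congruent to one modulo `p ^ 2` is trivial if it is unramified everywhere
(Minkowski), or if it is trivial where the cyclotomic character is and at an element where the
latter is a natural number above one; the first condition follows from the `p`-part of the theorem
of Kronecker and Weber when it is unramified away from `p`.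
-/

set_option autoImplicit false
set_option linter.unusedSectionVars false
set_option linter.style.haveILetI false

noncomputable section

open FA.JTorsion (cycP)

local notation "Qb" => AlgebraicClosure ℚ
local notation "GQ" => AlgebraicClosure ℚ ≃ₐ[ℚ] AlgebraicClosure ℚ

namespace FA.OpenImageJ

variable {p : ℕ} [hp : Fact p.Prime]

variable (p) in
/-- The `p`-part of the theorem of Kronecker and Weber at one prime. -/
def KWProp : Prop :=
  ∀ (M : Type) [CommGroup M] [Finite M], IsPGroup p M → ∀ (f : GQ →* M)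
    (K : IntermediateField ℚ Qb), FiniteDimensional ℚ K →
    (∀ σ : GQ, (∀ x ∈ K, σ x = x) → f σ = 1) →
    (∀ l : ℕ, l.Prime → l ≠ p → ∀ A : ValuationSubring Qb, A.LiesOverPrime l →
      ∀ σ ∈ A.inertiaSubgroupIn ℚ, f σ = 1) →
    ∀ σ : GQ, cycP p σ = 1 → f σ = 1

/-- A character with principal values, locally constant modulo every power of `p`. -/
structure Principal (R : GQ →* ℤ_[p]ˣ) : Prop where
  two : ∀ σ, PadicInt.toZModPow 2 (R σ : ℤ_[p]) = 1
  field : ∀ n, ∃ K : IntermediateField ℚ Qb, FiniteDimensional ℚ K ∧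
    ∀ σ : GQ, (∀ x ∈ K, σ x = x) → PadicInt.toZModPow n (R σ : ℤ_[p]) = 1

theorem toZModPow_eq_one_iff {n : ℕ} {z : ℤ_[p]} :
    PadicInt.toZModPow n z = 1 ↔ (p : ℤ_[p]) ^ n ∣ z - 1 := by
  rw [← Ideal.mem_span_singleton, ← PadicInt.ker_toZModPow, RingHom.mem_ker, map_sub, map_one,
    sub_eq_zero]

/-- The units congruent to one modulo `p ^ n`, as kernel. -/
def levelHom (R : GQ →* ℤ_[p]ˣ) (n : ℕ) : GQ →* (ZMod (p ^ n))ˣ :=
  (Units.map (PadicInt.toZModPow n).toMonoidHom).comp R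

theorem levelHom_eq_one_iff {R : GQ →* ℤ_[p]ˣ} {n : ℕ} {σ : GQ} :
    levelHom R n σ = 1 ↔ PadicInt.toZModPow n (R σ : ℤ_[p]) = 1 := Units.ext_iff

theorem isOpen_ker_levelHom {R : GQ →* ℤ_[p]ˣ} {n : ℕ} (h : ∃ K : IntermediateField ℚ Qb,
    FiniteDimensional ℚ K ∧ ∀ σ : GQ, (∀ x ∈ K, σ x = x) →
      PadicInt.toZModPow n (R σ : ℤ_[p]) = 1) : IsOpen ((levelHom R n).ker : Set GQ) := by
  obtain ⟨K, hK, hfix⟩ := h
  exact Subgroup.isOpen_mono (H₁ := K.fixingSubgroup)
    (fun σ hσ => MonoidHom.mem_ker.mpr (levelHom_eq_one_iff.mpr (hfix σ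
      ((IntermediateField.mem_fixingSubgroup_iff K σ).mp hσ))))
    (IntermediateField.fixingSubgroup_isOpen K)

/-- The values have no torsion. -/
theorem Principal.eq_one_of_pow {R : GQ →* ℤ_[p]ˣ} (hR : Principal R) {σ : GQ} {k : ℕ}
    (hk : k ≠ 0) (h : R σ ^ k = 1) : R σ = 1 :=
  Units.ext (eq_one_of_pow_eq_one (toZModPow_eq_one_iff.mp (hR.two σ)) hk (by
    rw [← Units.val_pow_eq_pow_val, h, Units.val_one]))

/-- **Minkowski**: unramified everywhere is trivial. -/
theorem Principal.eq_one_of_unramified {R : GQ →* ℤ_[p]ˣ} (hR : Principal R)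
    (hun : ∀ l : ℕ, l.Prime → ∃ A : ValuationSubring Qb, A.LiesOverPrime l ∧
      ∀ σ ∈ A.inertiaSubgroupIn ℚ, R σ = 1) (σ : GQ) : R σ = 1 := by
  refine Units.ext (PadicInt.ext_of_toZModPow.mp fun n => ?_)
  rw [Units.val_one, map_one, ← levelHom_eq_one_iff, ← MonoidHom.mem_ker]
  obtain ⟨K, hK, hfix⟩ := hR.field n
  rw [FA.Local.eq_top_of_inertia_le (levelHom R n).ker K
    (fun τ hτ => MonoidHom.mem_ker.mpr (levelHom_eq_one_iff.mpr (hfix τ hτ))) fun l hl => ?_]
  · exact Subgroup.mem_top σ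
  · obtain ⟨A, hA, h⟩ := hun l hl
    exact ⟨A, hA, fun τ hτ => MonoidHom.mem_ker.mpr (levelHom_eq_one_iff.mpr (by
      rw [h τ hτ, Units.val_one, map_one]))⟩

/-- The `p`-part of Kronecker-Weber for a principal character. -/
theorem Principal.eq_one_of_cycP {R : GQ →* ℤ_[p]ˣ} (hR : Principal R) (hKW : KWProp p)
    (hun : ∀ l : ℕ, l.Prime → l ≠ p → ∀ A : ValuationSubring Qb, A.LiesOverPrime l →
      ∀ σ ∈ A.inertiaSubgroupIn ℚ, R σ = 1) {σ : GQ} (hσ : cycP p σ = 1) : R σ = 1 := by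
  refine Units.ext (PadicInt.ext_of_toZModPow.mp fun n => ?_)
  rw [Units.val_one, map_one]
  let M : Subgroup (ZMod (p ^ (n + 2)))ˣ :=
    ((levelHom R (n + 2)).range)
  let f : GQ →* M := (levelHom R (n + 2)).rangeRestrict
  have hM : IsPGroup p M := by
    rintro ⟨y, τ, rfl⟩
    refine ⟨n, Subtype.ext ?_⟩
    rw [SubmonoidClass.coe_pow, OneMemClass.coe_one, ← map_pow, levelHom_eq_one_iff, map_pow,
      Units.val_pow_eq_pow_val]
    rcases eq_or_ne (R τ : ℤ_[p]) 1 with h1 | h1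
    · rw [h1, one_pow, map_one]
    obtain ⟨v, u, hv, hu, he⟩ := exists_eq_one_add (toZModPow_eq_one_iff.mp (hR.two τ)) h1
    obtain ⟨u', -, hp'⟩ := exists_pow_prime_pow hv hu n
    rw [toZModPow_eq_one_iff, he, hp', add_sub_cancel_left]
    exact (pow_dvd_pow _ (by omega)).mul_right _
  obtain ⟨K, hK, hfix⟩ := hR.field (n + 2)
  haveI : Finite M := inferInstance
  have h := hKW M hM f K hK (fun τ hτ => Subtype.ext (levelHom_eq_one_iff.mpr (hfix τ hτ)))
    (fun l hl hlp A hA τ hτ => Subtype.ext (levelHom_eq_one_iff.mpr (by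
      rw [hun l hl hlp A hA τ hτ, Units.val_one, map_one]))) σ hσ
  have h' := levelHom_eq_one_iff.mp (congrArg Subtype.val h)
  rw [toZModPow_eq_one_iff] at h' ⊢
  exact (pow_dvd_pow _ (by omega)).trans h'

/-- Trivial on the kernel of the cyclotomic character and where that is a natural number `q > 1`:
then trivial. -/
theorem Principal.eq_one_of_ker {R : GQ →* ℤ_[p]ˣ} (hR : Principal R)
    (hker : ∀ σ, cycP p σ = 1 → R σ = 1) {F : GQ} {q : ℕ} (hq : 1 < q)
    (hF : ((cycP p F : ℤ_[p]ˣ) : ℤ_[p]) = q) (hRF : R F = 1) (σ : GQ) : R σ = 1 := by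
  have htot : ∀ (n : ℕ) (τ : GQ),
      PadicInt.toZModPow n ((cycP p τ ^ (p ^ n).totient : ℤ_[p]ˣ) : ℤ_[p]) = 1 := fun n τ => by
    have h := ZMod.pow_totient (Units.map (PadicInt.toZModPow n).toMonoidHom (cycP p τ))
    rw [← map_pow] at h
    exact congrArg Units.val h
  set d := (p ^ 2).totient with hd
  have hd0 : d ≠ 0 := (Nat.totient_pos.mpr (pow_pos hp.out.pos 2)).ne'
  obtain ⟨v, u, hv, hu, hx⟩ := exists_eq_one_add (toZModPow_eq_one_iff.mp (htot 2 F)) (by
    rw [Units.val_pow_eq_pow_val, hF]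
    exact_mod_cast (Nat.one_lt_pow hd0 hq).ne')
  set e := (p ^ v).totient
  refine hR.eq_one_of_pow (k := e) (Nat.totient_pos.mpr (pow_pos hp.out.pos v)).ne' ?_
  rw [← map_pow]
  refine Units.ext (PadicInt.ext_of_toZModPow.mp fun n => ?_)
  rw [Units.val_one, map_one, ← levelHom_eq_one_iff]
  -- by compactness a level of the cyclotomic character suffices
  obtain ⟨m, hm⟩ : ∃ m, ∀ τ, levelHom (cycP p) m τ = 1 → levelHom R n τ = 1 := by
    by_contra hcon
    push Not at hcon
    let S : ℕ → Set GQ := fun m => ((levelHom (cycP p) m).ker : Set GQ) ∩ ((levelHom R n).ker : Set GQ)ᶜ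
    have hclosed : ∀ m, IsClosed (S m) := fun m =>
      (Subgroup.isClosed_of_isOpen _ (isOpen_ker_levelHom (FA.JTorsion.exists_field_cycP p m))).inter
        (isOpen_ker_levelHom (hR.field n)).isClosed_compl
    obtain ⟨τ, hτ⟩ := IsCompact.nonempty_iInter_of_sequence_nonempty_isCompact_isClosed S
      (fun m τ hτ => ⟨MonoidHom.mem_ker.mpr (levelHom_eq_one_iff.mpr (toZModPow_eq_one_iff.mpr
          ((pow_dvd_pow _ m.le_succ).trans (toZModPow_eq_one_iff.mp
            (levelHom_eq_one_iff.mp (MonoidHom.mem_ker.mp hτ.1)))))), hτ.2⟩)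
      (fun m => by
        obtain ⟨τ, h1, h2⟩ := hcon m
        exact ⟨τ, MonoidHom.mem_ker.mpr h1, fun h => h2 (MonoidHom.mem_ker.mp h)⟩)
      (hclosed 0).isCompact hclosed
    simp only [Set.mem_iInter] at hτ
    refine (hτ 0).2 (MonoidHom.mem_ker.mpr ?_)
    have h1 : cycP p τ = 1 := Units.ext (PadicInt.ext_of_toZModPow.mp fun k => by
      rw [Units.val_one, map_one]
      exact levelHom_eq_one_iff.mp (MonoidHom.mem_ker.mp (hτ k).1))
    rw [levelHom_eq_one_iff, hker τ h1, Units.val_one, map_one]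
  obtain ⟨i, hi⟩ := exists_pow_congr hv hu
    (z := ((cycP p (σ ^ e) : ℤ_[p]ˣ) : ℤ_[p]))
    (by rw [map_pow]; exact toZModPow_eq_one_iff.mp (htot v σ)) m
  rw [← hx] at hi
  have hg := hm ((F ^ (d * i))⁻¹ * σ ^ e) (by
    rw [map_mul, map_inv, inv_mul_eq_one]
    refine Units.ext ?_
    show PadicInt.toZModPow m ((cycP p (F ^ (d * i)) : ℤ_[p]ˣ) : ℤ_[p]) = _
    rw [← sub_eq_zero]
    show PadicInt.toZModPow m _ - PadicInt.toZModPow m _ = 0
    rw [← map_sub, ← RingHom.mem_ker, PadicInt.ker_toZModPow, Ideal.mem_span_singleton]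
    refine (pow_dvd_pow _ (Nat.le_add_left m v)).trans ?_
    rw [map_pow, pow_mul, Units.val_pow_eq_pow_val]
    exact hi)
  rw [map_mul, map_inv, inv_mul_eq_one] at hg
  rw [← hg, map_pow, levelHom_eq_one_iff.mpr (by rw [hRF, Units.val_one, map_one]), one_pow]

end FA.OpenImageJ

end
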