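import Fermat.Agent.Root.PadicImageOpen
import Fermat.Agent.Root.SummaryPotentialGoodReduction
import Fermat.Agent.Root.SummaryTorsion

/-!
# Stable lines of Tate modules

A stable line of the Tate module gives a character of Galois, and without one a multiplicative
prime different from `p` makes the image open.
-/

set_option autoImplicit false
set_option linter.unusedSectionVars false
set_option linter.style.haveILetI false

noncomputable section

open Matrix WeierstrassCurve FA.EC FA.Frob FA.RT FA.RT.Tate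
open scoped WeierstrassCurve.Affine

local notation "Qb" => AlgebraicClosure ℚ
local notation "GQ" => AlgebraicClosure ℚ ≃ₐ[ℚ] AlgebraicClosure ℚ

namespace FA.OpenImageJ

variable {W : WeierstrassCurve ℤ} [(ratCurve W).IsElliptic] {p : ℕ} [hp : Fact p.Prime]
  (B : TateBasis p W)

/-- **No stable line**: every nonzero vector is moved out of its line by some element of Galois. -/
def NoStableLine : Prop :=
  ∀ e : Fin 2 → ℤ_[p], e ≠ 0 → ∃ g, e 0 * (B.rep g *ᵥ e) 1 - e 1 * (B.rep g *ᵥ e) 0 ≠ 0

variable {B}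

/-- A stable line carries a character. -/
theorem exists_character_of_not_noStableLine (h : ¬ NoStableLine B) :
    ∃ (e : Fin 2 → ℤ_[p]) (i : Fin 2) (χ : GQ →* ℤ_[p]),
      e i = 1 ∧ ∀ σ, B.rep σ *ᵥ e = χ σ • e := by
  simp only [NoStableLine, not_forall, not_exists, not_not] at h
  obtain ⟨e, he, hall⟩ := h
  obtain ⟨d, e', i, hi, rfl⟩ : ∃ (d : ℤ_[p]) (e' : Fin 2 → ℤ_[p]) (i : Fin 2),
      e' i = 1 ∧ e = d • e' := by
    rcases ValuationRing.dvd_total (e 0) (e 1) with ⟨c, hc⟩ | ⟨c, hc⟩
    · exact ⟨e 0, ![1, c], 0, rfl, funext fun j => by fin_cases j <;> simp [hc]⟩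
    · exact ⟨e 1, ![c, 1], 1, rfl, funext fun j => by fin_cases j <;> simp [hc]⟩
  have hd : d ≠ 0 := fun h => he (by rw [h, zero_smul])
  have hcross : ∀ σ, e' 0 * (B.rep σ *ᵥ e') 1 = e' 1 * (B.rep σ *ᵥ e') 0 := fun σ => by
    have h := hall σ
    simp only [mulVec_smul, Pi.smul_apply, smul_eq_mul] at h
    exact mul_left_cancel₀ (mul_ne_zero hd hd) (by linear_combination h)
  have hscal : ∀ σ, B.rep σ *ᵥ e' = (B.rep σ *ᵥ e') i • e' := fun σ => funext fun j => by
    have h := hcross σ
    generalize B.rep σ *ᵥ e' = x at h ⊢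
    rw [Pi.smul_apply, smul_eq_mul]
    fin_cases i <;> fin_cases j <;> simp at hi <;> simp [hi] at h ⊢ <;>
      first | linear_combination h | linear_combination -h
  refine ⟨e', i,
    { toFun := fun σ => (B.rep σ *ᵥ e') i
      map_one' := by rw [map_one, one_mulVec, hi]
      map_mul' := fun σ τ => by
        rw [map_mul, ← mulVec_mulVec]
        conv_lhs => rw [hscal τ]
        rw [mulVec_smul, Pi.smul_apply, smul_eq_mul, mul_comm] }, hi, hscal⟩

/-- **Open image** from a multiplicative prime `q ≠ p` and no stable line. -/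
theorem exists_level_of_multAt {q : ℕ} {A : ValuationSubring Qb} (hm : MultAt W q A) (hqp : q ≠ p)
    (hline : NoStableLine B) :
    ∃ k : ℕ, 0 < k ∧ ∀ Y : Matrix (Fin 2) (Fin 2) ℤ_[p],
      IsUnit (1 + (p : ℤ_[p]) ^ k • Y).det → ∃ σ, B.rep σ = 1 + (p : ℤ_[p]) ^ k • Y := by
  obtain ⟨σ, hσ, hne⟩ := FA.OpenImage.exists_inertia_rep_ne_one B hm
  obtain ⟨k, hk⟩ := FA.PadicImage.exists_level_of_unipotent B hline
    (FA.Two.rep_inertia_mult B hm hqp hσ hσ) hne
  refine ⟨k + 1, k.succ_pos, fun Y => ?_⟩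
  rw [pow_succ, mul_smul]
  exact hk _

end FA.OpenImageJ

end
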