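import Fermat.Agent.HasseBound.Extensions
import Fermat.Agent.IsogenyPrimes.Main
import Fermat.Agent.OpenImageJ.Characters
import Fermat.Agent.OpenImageJ.Lines
import Fermat.Agent.RT.Tame
import Fermat.Agent.Root.TateNoStableLine
import Mathlib.FieldTheory.Finite.GaloisField

/-!
# No stable line in the Tate module of a curve with non-integral invariant

The equation has multiplicative reduction at every pole of `j`. A fixed power of the character of a
stable line is unramified away from `p`; at a pole `p` it is trivial or cyclotomic on inertia, hence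
so everywhere by Minkowski; at a pole `q ≠ p` the Frobenius has the eigenvalue `± q` on the line, so
by the theorem of Kronecker and Weber it is cyclotomic. At a good prime `l` both contradict that
there are points over `F_(l ^ n)`.
-/

set_option autoImplicit false
set_option linter.unusedSectionVars false
set_option linter.style.haveILetI false

noncomputable section

open Matrix WeierstrassCurve FA.EC FA.Frob FA.RT FA.RT.Tate FA.Local
open FA.JTorsion (cycP)
open scoped WeierstrassCurve.Affine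

local notation "Qb" => AlgebraicClosure ℚ
local notation "GQ" => AlgebraicClosure ℚ ≃ₐ[ℚ] AlgebraicClosure ℚ

namespace FA.OpenImageJ

variable {p : ℕ} [hp : Fact p.Prime]

/-- If `F N = q N F` for a nilpotent `N ≠ 0`, the eigenvalue of `F` on the kernel of `N` is `± q`. -/
theorem sq_eq_of_relation {N F : Matrix (Fin 2) (Fin 2) ℤ_[p]} {e : Fin 2 → ℤ_[p]} {i : Fin 2}
    (hi : e i = 1) (hN : N ≠ 0) (hN2 : N * N = 0) (hNe : N *ᵥ e = 0) {q χ : ℤ_[p]}
    (hdet : F.det = q) (hrel : F * N = q • (N * F)) (hFe : F *ᵥ e = χ • e) : χ ^ 2 = q ^ 2 := by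
  obtain ⟨j, hj⟩ : ∃ j, N *ᵥ Pi.single j 1 ≠ 0 := by
    by_contra hc
    push Not at hc
    refine hN (Matrix.ext fun a b => ?_)
    have := congrFun (hc b) a
    rwa [mulVec_single_one] at this
  set v : Fin 2 → ℤ_[p] := Pi.single j 1 with hv
  -- Cramer
  have cramer : ∀ x : Fin 2 → ℤ_[p], (v 0 * e 1 - v 1 * e 0) • (N *ᵥ x) =
      (x 0 * e 1 - x 1 * e 0) • (N *ᵥ v) := fun x => by
    have hx : (v 0 * e 1 - v 1 * e 0) • x =
        (x 0 * e 1 - x 1 * e 0) • v + (v 0 * x 1 - v 1 * x 0) • e := by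
      funext k; fin_cases k <;> simp <;> ring
    have := congrArg (N *ᵥ ·) hx
    simp only [mulVec_smul, mulVec_add, hNe, smul_zero, add_zero] at this
    exact this
  have hD : v 0 * e 1 - v 1 * e 0 ≠ 0 := fun h0 => hj (by
    have hx : e i • v = v i • e := by
      funext k; fin_cases i <;> fin_cases k <;> simp <;>
        first | ring1 | linear_combination h0 | linear_combination -h0
    rw [hi, one_smul] at hx
    rw [hx, mulVec_smul, hNe, smul_zero])
  -- the image of `N` lies on the line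
  have hk : ∃ c : ℤ_[p], c ≠ 0 ∧ N *ᵥ v = c • e := by
    set k := N *ᵥ v with hk
    have hNk : N *ᵥ k = 0 := by rw [hk, mulVec_mulVec, hN2, zero_mulVec]
    have h1 := cramer k
    rw [hNk, smul_zero, eq_comm, smul_eq_zero] at h1
    have hd : k 0 * e 1 - k 1 * e 0 = 0 := h1.resolve_right hj
    have hall : ∀ m, k m = k i * e m := fun m => by
      have : k m * e i = k i * e m := by
        fin_cases i <;> fin_cases m <;> simp <;>
          first | ring1 | linear_combination hd | linear_combination -hd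
      rwa [hi, mul_one] at this
    refine ⟨k i, fun hki => hj (funext fun m => ?_), funext fun m => ?_⟩
    · exact (hall m).trans (by rw [hki, zero_mul, Pi.zero_apply])
    · exact hall m
  obtain ⟨c, hc, hk⟩ := hk
  -- compare
  have h2 := congrArg (fun M : Matrix (Fin 2) (Fin 2) ℤ_[p] =>
    (v 0 * e 1 - v 1 * e 0) • M *ᵥ v) hrel
  simp only [smul_mulVec, ← mulVec_mulVec, hk, mulVec_smul, hFe, smul_smul] at h2
  rw [mul_comm (v 0 * e 1 - v 1 * e 0) q, mul_smul q, cramer (F *ᵥ v), hk, smul_smul, smul_smul]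
    at h2
  have h3 := congrFun h2 i
  simp only [Pi.smul_apply, smul_eq_mul, hi, mul_one] at h3
  have h4 : χ * ((F *ᵥ v) 0 * e 1 - (F *ᵥ v) 1 * e 0) = q * (v 0 * e 1 - v 1 * e 0) := by
    have e0 := congrFun hFe 0
    have e1 := congrFun hFe 1
    simp only [mulVec, dotProduct, Fin.sum_univ_two, Pi.smul_apply, smul_eq_mul] at e0 e1 ⊢
    rw [← hdet, det_fin_two]
    linear_combination (F 1 0 * v 0 + F 1 1 * v 1) * e0 - (F 0 0 * v 0 + F 0 1 * v 1) * e1
  have h5 : (v 0 * e 1 - v 1 * e 0) * c * (χ ^ 2 - q ^ 2) = 0 := by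
    linear_combination χ * h3 + q * c * h4
  exact sub_eq_zero.mp ((mul_eq_zero.mp h5).resolve_left (mul_ne_zero hD hc))

variable {W : WeierstrassCurve ℤ} [(ratCurve W).IsElliptic] {B : TateBasis p W}

/-- A point congruent to zero lies in the subgroup of nonsingular reduction. -/
theorem mem_e0Sub_of_e1 {q : ℕ} {A : ValuationSubring Qb} {r : Qb} (N : NodeData W q A r)
    {P : Pts W} (hP : E1 A.valuation (((ratCurve W)⁄Qb)).toAffine P) : P ∈ N.e0Sub := by
  obtain ⟨P, rfl⟩ := (originEquiv ((ratCurve W)⁄Qb) r).surjective P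
  exact N.mem_e0Sub.mpr (e1_e0 ((e1_origin N.int P).mp hP))

/-- At a multiplicative `p` inertia has the eigenvalue one. -/
theorem det_rep_sub_one_of_multAt {A : ValuationSubring Qb} (hm : MultAt W p A)
    (B : TateBasis p W) {σ : GQ} (hσ : σ ∈ A.inertiaSubgroupIn ℚ) :
    (B.rep σ - 1).det = 0 := by
  obtain ⟨r, N⟩ := exists_nodeData hm
  obtain ⟨P, hPp, hP0⟩ := FA.OpenImage.exists_torsion_not_mem_e0_all (p := p) N
  exact FA.OpenImage.det_rep_sub_one_of_e1 B (fun P => hm.e1_smul_sub_smul_sub hσ hσ P)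
    ⟨P, hPp, fun h => hP0 (mem_e0Sub_of_e1 N h)⟩

/-- At a multiplicative `q ≠ p` the Frobenius has the eigenvalue `± q` on a stable line. -/
theorem frobenius_sq_of_multAt {q : ℕ} {A : ValuationSubring Qb} (hm : MultAt W q A) (hqp : q ≠ p)
    {F : GQ} (hF : A.IsFrobeniusAt F q) {e : Fin 2 → ℤ_[p]} {i : Fin 2} (hi : e i = 1)
    {χ : GQ →* ℤ_[p]} (hχ : ∀ σ, B.rep σ *ᵥ e = χ σ • e) : χ F ^ 2 = (q : ℤ_[p]) ^ 2 := by
  obtain ⟨s, hs, hne⟩ := FA.OpenImage.exists_inertia_rep_ne_one B hm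
  set N := B.rep s - 1 with hNdef
  have hN2 : N * N = 0 := FA.Two.rep_inertia_mult B hm hqp hs hs
  have hNe : N *ᵥ e = 0 := by
    have h1 : N *ᵥ e = (χ s - 1) • e := by
      rw [hNdef, sub_mulVec, one_mulVec, hχ, sub_smul, one_smul]
    have h2 := congrArg (· *ᵥ e) hN2
    simp only [← mulVec_mulVec, h1, mulVec_smul, smul_smul, zero_mulVec] at h2
    have h3 := congrFun h2 i
    simp only [Pi.smul_apply, smul_eq_mul, hi, mul_one, Pi.zero_apply] at h3
    rw [h1, mul_self_eq_zero.mp h3, zero_smul]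
  have hpow : ∀ m : ℕ, B.rep s ^ m = 1 + (m : ℤ_[p]) • N := fun m =>
    FA.PadicImage.pow_eq_of_sq_eq_zero hN2 m
  refine sq_eq_of_relation hi (sub_ne_zero.mpr hne) hN2 hNe
    (by rw [B.det_rep, FA.JTorsion.cycP_frobenius p hm.prime hqp hm.lies hF]) ?_ (hχ F)
  -- the tame relation modulo every power of `p`
  have hrel : B.rep F * B.rep s = B.rep s ^ q * B.rep F := by
    refine Matrix.ext fun a b => PadicInt.ext_of_toZModPow.mp fun n => ?_
    let f : GQ →* Matrix (Fin 2) (Fin 2) (ZMod (p ^ n)) :=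
      (PadicInt.toZModPow n).mapMatrix.toMonoidHom.comp B.rep
    obtain ⟨L, hL, hLf⟩ := B.exists_field n
    have hf : IsOpen (f.ker : Set GQ) := Subgroup.isOpen_mono (H₁ := L.fixingSubgroup)
      (fun σ hσ => MonoidHom.mem_ker.mpr
        (hLf σ ((IntermediateField.mem_fixingSubgroup_iff L σ).mp hσ)))
      (IntermediateField.fixingSubgroup_isOpen L)
    have h := FA.RT.tame_relation f hp.out hm.prime hqp.symm hm.lies hf (fun σ hσ => ⟨n, by
      show (B.rep σ).map (PadicInt.toZModPow n) ^ p ^ n = 1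
      rw [← RingHom.mapMatrix_apply, ← map_pow,
        FA.PadicImage.pow_eq_of_sq_eq_zero (FA.Two.rep_inertia_mult B hm hqp hσ hσ)]
      ext a b
      rw [RingHom.mapMatrix_apply, Matrix.map_apply, Matrix.add_apply, Matrix.smul_apply,
        smul_eq_mul, map_add, map_mul, map_natCast, ZMod.natCast_self, zero_mul, add_zero,
        Matrix.one_apply, Matrix.one_apply, apply_ite (PadicInt.toZModPow n), map_one, map_zero]⟩)
      hF hs
    have h' : (PadicInt.toZModPow n).mapMatrix (B.rep F * B.rep s) =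
        (PadicInt.toZModPow n).mapMatrix (B.rep s ^ q * B.rep F) := by
      rw [map_mul, map_mul, map_pow]; exact h
    exact congrFun (congrFun h' a) b
  rw [hpow] at hrel
  have : B.rep F * (1 + N) = (1 + (q : ℤ_[p]) • N) * B.rep F := by
    rw [hNdef, add_sub_cancel]; exact hrel
  rw [mul_add, mul_one, add_mul, one_mul, add_right_inj, smul_mul_assoc] at this
  exact this

/-- At a prime where `j` is integral a positive power of every inertia element has eigenvalue one
on a stable line. -/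
theorem exists_pow_eq_one_of_integral {l : ℕ} [Fact l.Prime] (hlp : l ≠ p)
    (hj : 0 ≤ padicValRat l (ratCurve W).j) {A : ValuationSubring Qb} (hA : A.LiesOverPrime l)
    {e : Fin 2 → ℤ_[p]} {i : Fin 2} (hi : e i = 1) {χ : GQ →* ℤ_[p]}
    (hχ : ∀ σ, B.rep σ *ᵥ e = χ σ • e) {σ : GQ} (hσ : σ ∈ A.inertiaSubgroupIn ℚ) :
    ∃ k : ℕ, k ≠ 0 ∧ χ σ ^ k = 1 := by
  obtain ⟨K, hK, hfix⟩ := FA.Summary.exists_field_inertia_fixes_torsion (ratCurve W) hj hA
  haveI : Finite (GQ ⧸ K.fixingSubgroup) :=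
    Subgroup.quotient_finite_of_isOpen _ (IntermediateField.fixingSubgroup_isOpen K)
  haveI : K.fixingSubgroup.FiniteIndex := Subgroup.finiteIndex_of_finite_quotient
  obtain ⟨k, hk, -, hmem⟩ := Subgroup.exists_pow_mem_of_index_ne_zero (H := K.fixingSubgroup)
    Subgroup.FiniteIndex.index_ne_zero σ
  have h1 : B.rep (σ ^ k) = 1 := B.rep_eq_one fun n x hx =>
    hfix (σ ^ k) (pow_mem hσ k) ((IntermediateField.mem_fixingSubgroup_iff K _).mp hmem) p hp.out
      hlp.symm n x hx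
  have h2 := congrFun (hχ (σ ^ k)) i
  rw [h1, one_mulVec, Pi.smul_apply, smul_eq_mul, hi, mul_one, map_pow] at h2
  exact ⟨k, hk.ne', h2.symm⟩

/-- **No stable line**: if on every stable line inertia away from `p` acts through roots of unity
and either inertia at `p` has, on a subgroup of finite index, the eigenvalue one, or the equation
is multiplicative at another prime and the `p`-part of the theorem of Kronecker and Weber holds. -/
theorem noStableLine_of_inertia (B : TateBasis p W)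
    (hfinite : ∀ (e : Fin 2 → ℤ_[p]) (i : Fin 2) (χ : GQ →* ℤ_[p]), e i = 1 →
      (∀ σ, B.rep σ *ᵥ e = χ σ • e) → ∀ l : ℕ, l.Prime → l ≠ p → ∀ A : ValuationSubring Qb,
        A.LiesOverPrime l → ∀ σ ∈ A.inertiaSubgroupIn ℚ, ∃ k : ℕ, k ≠ 0 ∧ χ σ ^ k = 1)
    (hat : ∀ (e : Fin 2 → ℤ_[p]) (i : Fin 2) (χ : GQ →* ℤ_[p]), e i = 1 →
      (∀ σ, B.rep σ *ᵥ e = χ σ • e) →
      (∃ (A : ValuationSubring Qb) (H : Subgroup GQ), A.LiesOverPrime p ∧ H.index ≠ 0 ∧
          ∀ σ ∈ A.inertiaSubgroupIn ℚ ⊓ H, (B.rep σ - 1).det = 0) ∨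
      ((∃ q : ℕ, q.Prime ∧ q ≠ p ∧ (q : ℤ) ∣ W.Δ ∧ ¬ (q : ℤ) ∣ W.c₄) ∧ KWProp p)) :
    NoStableLine B := by
  classical
  by_contra hline
  obtain ⟨e, i, χ, hi, hχ⟩ := exists_character_of_not_noStableLine hline
  have hΔ : W.Δ ≠ 0 := fun h => (ratCurve W).isUnit_Δ.ne_zero (by simp [ratCurve, h])
  have he : e ≠ 0 := fun h => by simp [h] at hi
  -- the powers
  set M := 2 * (p ^ 2).totient with hM
  have hM0 : M ≠ 0 := by
    have := Nat.totient_pos.mpr (pow_pos hp.out.pos 2)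
    omega
  let χu : GQ →* ℤ_[p]ˣ := χ.toHomUnits
  have hχu : ∀ σ, (χu σ : ℤ_[p]) = χ σ := fun σ => χ.coe_toHomUnits σ
  let R₁ : GQ →* ℤ_[p]ˣ := (powMonoidHom M).comp χu
  let R₂ : GQ →* ℤ_[p]ˣ := (powMonoidHom M).comp (χu / cycP p)
  have hR₁ : ∀ σ, R₁ σ = χu σ ^ M := fun σ => rfl
  have hR₂ : ∀ σ, R₂ σ = (χu σ / cycP p σ) ^ M := fun σ => rfl
  have htot : ∀ u : ℤ_[p]ˣ, PadicInt.toZModPow 2 ((u ^ M : ℤ_[p]ˣ) : ℤ_[p]) = 1 := fun u => by
    have h := ZMod.pow_totient (Units.map (PadicInt.toZModPow 2).toMonoidHom u)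
    have h' : (Units.map (PadicInt.toZModPow 2).toMonoidHom) (u ^ M) = 1 := by
      rw [map_pow, hM, mul_comm, pow_mul, h, one_pow]
    exact congrArg Units.val h'
  have hχfield : ∀ n, ∃ K : IntermediateField ℚ Qb, FiniteDimensional ℚ K ∧
      ∀ σ : GQ, (∀ x ∈ K, σ x = x) → levelHom χu n σ = 1 ∧ levelHom (cycP p) n σ = 1 := fun n => by
    obtain ⟨L, hL, hLf⟩ := B.exists_field n
    refine ⟨L, hL, fun σ hσ => ⟨levelHom_eq_one_iff.mpr ?_, levelHom_eq_one_iff.mpr ?_⟩⟩
    · have h := congrArg (fun Z : Matrix (Fin 2) (Fin 2) (ZMod (p ^ n)) =>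
        (Z *ᵥ (PadicInt.toZModPow n ∘ e)) i) (hLf σ hσ)
      rw [one_mulVec, ← RingHom.map_mulVec, Function.comp_apply, hχ, Pi.smul_apply, smul_eq_mul,
        hi, mul_one, map_one] at h
      rw [hχu]; exact h
    · rw [← B.det_rep, RingHom.map_det, RingHom.mapMatrix_apply, hLf σ hσ, det_one]
  have hP₁ : Principal R₁ := ⟨fun σ => htot _, fun n => by
    obtain ⟨K, hK, h⟩ := hχfield n
    refine ⟨K, hK, fun σ hσ => levelHom_eq_one_iff.mp ?_⟩
    show Units.map _ (χu σ ^ M) = 1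
    rw [map_pow]
    exact (congrArg (· ^ M) (h σ hσ).1).trans (one_pow M)⟩
  have hP₂ : Principal R₂ := ⟨fun σ => htot _, fun n => by
    obtain ⟨K, hK, h⟩ := hχfield n
    refine ⟨K, hK, fun σ hσ => levelHom_eq_one_iff.mp ?_⟩
    show Units.map _ ((χu σ / cycP p σ) ^ M) = 1
    rw [map_pow, map_div]
    show (levelHom χu n σ / levelHom (cycP p) n σ) ^ M = 1
    rw [(h σ hσ).1, (h σ hσ).2, div_one, one_pow]⟩
  -- away from `p` both are unramified
  have haway : ∀ l : ℕ, l.Prime → l ≠ p → ∀ A : ValuationSubring Qb, A.LiesOverPrime l →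
      ∀ σ ∈ A.inertiaSubgroupIn ℚ, R₁ σ = 1 ∧ R₂ σ = 1 := fun l hl hlp A hA σ hσ => by
    obtain ⟨k, hk, hpow⟩ := hfinite e i χ hi hχ l hl hlp A hA σ hσ
    have h1 : R₁ σ = 1 := hP₁.eq_one_of_pow hk (by
      rw [hR₁, ← pow_mul, mul_comm, pow_mul, show χu σ ^ k = 1 from
        Units.ext (by rw [Units.val_pow_eq_pow_val, hχu, hpow, Units.val_one]), one_pow])
    refine ⟨h1, ?_⟩
    rw [hR₂, FA.JTorsion.cycP_inertia p hl hlp hA hσ, div_one, ← hR₁, h1]
  have hall : (∀ σ, R₁ σ = 1) ∨ ∀ σ, R₂ σ = 1 := by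
    rcases hat e i χ hi hχ with ⟨Ap, H, hAp, hH, hdet⟩ | ⟨⟨q, hq, hqp, hd, hc⟩, hKW⟩
    · have key : ∀ σ ∈ Ap.inertiaSubgroupIn ℚ ⊓ H,
          σ ∈ χu.ker ∨ σ ∈ (χu / cycP p).ker := fun σ hσ => by
        have h := (FA.OpenImage.eigen_mul_det_sub_one he (hχ σ)).2
        rw [hdet σ hσ, mul_zero, eq_comm, mul_eq_zero, sub_eq_zero,
          sub_eq_zero] at h
        refine h.imp (fun h => MonoidHom.mem_ker.mpr (Units.ext ((hχu σ).trans h)))
          fun h => MonoidHom.mem_ker.mpr ?_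
        rw [MonoidHom.div_apply, div_eq_one, Units.ext_iff, hχu, ← h, B.det_rep]
      have hpw : ∀ σ ∈ Ap.inertiaSubgroupIn ℚ, ∃ k, k ≠ 0 ∧
          σ ^ k ∈ Ap.inertiaSubgroupIn ℚ ⊓ H := fun σ hσ => by
        obtain ⟨k, hk, -, hmem⟩ := Subgroup.exists_pow_mem_of_index_ne_zero hH σ
        exact ⟨k, hk.ne', Subgroup.mem_inf.mpr ⟨pow_mem hσ k, hmem⟩⟩
      have hor : Ap.inertiaSubgroupIn ℚ ⊓ H ≤ χu.ker ∨
          Ap.inertiaSubgroupIn ℚ ⊓ H ≤ (χu / cycP p).ker := by
        by_contra hcon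
        rw [not_or, SetLike.not_le_iff_exists, SetLike.not_le_iff_exists] at hcon
        obtain ⟨⟨a, ha, ha1⟩, b, hb, hb2⟩ := hcon
        have ha2 := (key a ha).resolve_left ha1
        have hb1 := (key b hb).resolve_right hb2
        rcases key (a * b) (mul_mem ha hb) with h | h
        · exact ha1 (((χu).ker.mul_mem_cancel_right hb1).mp h)
        · exact hb2 (((χu / cycP p).ker.mul_mem_cancel_left ha2).mp h)
      rcases hor with h | h
      · refine Or.inl (hP₁.eq_one_of_unramified fun l hl => ?_)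
        rcases eq_or_ne l p with rfl | hlp
        · refine ⟨Ap, hAp, fun σ hσ => ?_⟩
          obtain ⟨k, hk, hmem⟩ := hpw σ hσ
          refine hP₁.eq_one_of_pow hk ?_
          rw [← map_pow, hR₁, MonoidHom.mem_ker.mp (h hmem), one_pow]
        · obtain ⟨A, hA⟩ := FA.Deform.exists_liesOverPrime hl
          exact ⟨A, hA, fun σ hσ => (haway l hl hlp A hA σ hσ).1⟩
      · refine Or.inr (hP₂.eq_one_of_unramified fun l hl => ?_)
        rcases eq_or_ne l p with rfl | hlp
        · refine ⟨Ap, hAp, fun σ hσ => ?_⟩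
          obtain ⟨k, hk, hmem⟩ := hpw σ hσ
          refine hP₂.eq_one_of_pow hk ?_
          rw [← map_pow, hR₂, ← MonoidHom.div_apply, MonoidHom.mem_ker.mp (h hmem), one_pow]
        · obtain ⟨A, hA⟩ := FA.Deform.exists_liesOverPrime hl
          exact ⟨A, hA, fun σ hσ => (haway l hl hlp A hA σ hσ).2⟩
    · obtain ⟨A, hA⟩ := FA.Deform.exists_liesOverPrime hq
      obtain ⟨F, hF⟩ := FA.Deform.exists_isFrobeniusAt hq hA
      have hcF : ((cycP p F : ℤ_[p]ˣ) : ℤ_[p]) = q := FA.JTorsion.cycP_frobenius p hq hqp hA hF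
      have hsq := frobenius_sq_of_multAt ⟨hΔ, hq, hd, hc, hA⟩ hqp hF hi hχ
      refine Or.inr (hP₂.eq_one_of_ker (fun σ hσ => hP₂.eq_one_of_cycP hKW
        (fun l hl hlp A hA σ hσ => (haway l hl hlp A hA σ hσ).2) hσ) hq.one_lt hcF ?_)
      rw [hR₂, hM, pow_mul, div_pow, show χu F ^ 2 = cycP p F ^ 2 from Units.ext (by
        rw [Units.val_pow_eq_pow_val, Units.val_pow_eq_pow_val, hχu, hcF, hsq]), div_self', one_pow]
  -- a good prime
  obtain ⟨l, hl1, hl⟩ := Nat.exists_infinite_primes (W.Δ.natAbs + p + 1)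
  have hgood : W.IsGoodPrimeFor l := fun hd => by
    have h1 := Nat.le_of_dvd (Int.natAbs_pos.mpr hΔ) (Int.natCast_dvd.mp hd)
    omega
  have hlp : l ≠ p := by omega
  obtain ⟨A, hA⟩ := FA.Deform.exists_liesOverPrime hl
  obtain ⟨F, hF⟩ := FA.Deform.exists_isFrobeniusAt hl hA
  obtain ⟨htr, hdet⟩ := B.rep_frobenius hl hA hlp hgood hF
  have hcF : ((cycP p F : ℤ_[p]ˣ) : ℤ_[p]) = l := FA.JTorsion.cycP_frobenius p hl hlp hA hF
  set y : ℤ_[p] := (W.apOfModel l : ℤ_[p]) - χ F with hy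
  have hxy : χ F * y = (((l : ℤ) : ℤ) : ℤ_[p]) := by
    have h := (FA.OpenImage.eigen_mul_det_sub_one he (hχ F)).1
    rw [htr, hdet] at h
    rw [hy, Int.cast_natCast]
    linear_combination -h
  have hsum := FA.IsogenyPrimes.pointTrace_eq_pow
    (show χ F + y = (W.apOfModel l : ℤ_[p]) by rw [hy]; ring) hxy M
  have hl0 : (l : ℤ_[p]) ≠ 0 := Nat.cast_ne_zero.mpr hl.ne_zero
  have hpow : χ F ^ M * y ^ M = (l : ℤ_[p]) ^ M := by
    rw [← mul_pow, hxy, Int.cast_natCast]
  have hzero : ((FA.HasseBound.pointTrace (W.apOfModel l) l M : ℤ) : ℤ_[p]) =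
      (((l : ℤ) ^ M + 1 : ℤ) : ℤ_[p]) := by
    rw [hsum]
    push_cast
    rcases hall with h | h
    · have h1 : χ F ^ M = 1 := by
        have := congrArg Units.val (h F)
        rwa [hR₁, Units.val_pow_eq_pow_val, hχu, Units.val_one] at this
      rw [h1, one_mul] at hpow
      rw [h1, hpow, add_comm]
    · have h1 : χ F ^ M = (l : ℤ_[p]) ^ M := by
        have h2 := h F
        rw [hR₂, div_pow, div_eq_one] at h2
        have := congrArg Units.val h2
        rwa [Units.val_pow_eq_pow_val, Units.val_pow_eq_pow_val, hχu, hcF] at this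
      rw [h1] at hpow ⊢
      have hy1 : y ^ M = 1 := mul_left_cancel₀ (pow_ne_zero M hl0) (by rw [hpow, mul_one])
      rw [hy1]
  have hz : FA.HasseBound.pointTrace (W.apOfModel l) l M = (l : ℤ) ^ M + 1 := by
    exact_mod_cast hzero
  haveI := Fact.mk hl
  haveI : (W.reductionMod l).IsElliptic := ⟨isUnit_iff_ne_zero.mpr (by
    rw [reductionMod, WeierstrassCurve.map_Δ]
    exact fun h => hgood ((ZMod.intCast_zmod_eq_zero_iff_dvd _ l).mp h))⟩
  haveI : Fintype (GaloisField l M) := Fintype.ofFinite _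
  have h := FA.HasseBound.natCard_point_extension (W.reductionMod l) (GaloisField l M)
  rw [GaloisField.finrank l hM0, ZMod.card] at h
  have hap : (l : ℤ) + 1 - Nat.card (W.reductionMod l).toAffine.Point = W.apOfModel l := by
    rw [apOfModel, traceOfFrobenius, Nat.card_zmod, WeierstrassCurve.card]
  rw [hap, hz, sub_self] at h
  exact (Nat.card_pos (α := ((W.reductionMod l).map
    (algebraMap (ZMod l) (GaloisField l M))).toAffine.Point)).ne' (by exact_mod_cast h)

/-- **No stable line**: if the equation has multiplicative reduction at the poles of `j`, of which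
there is one, and the `p`-part of the theorem of Kronecker and Weber holds. -/
theorem noStableLine_of_pole (B : TateBasis p W)
    (hpole : ∀ l : ℕ, l.Prime →
      ((l : ℤ) ∣ W.Δ ∧ ¬ (l : ℤ) ∣ W.c₄) ∨ 0 ≤ padicValRat l (ratCurve W).j)
    (hmult : ∃ q : ℕ, q.Prime ∧ (q : ℤ) ∣ W.Δ ∧ ¬ (q : ℤ) ∣ W.c₄) (hKW : KWProp p) :
    NoStableLine B := by
  have hΔ : W.Δ ≠ 0 := fun h => (ratCurve W).isUnit_Δ.ne_zero (by simp [ratCurve, h])
  refine noStableLine_of_inertia B (fun e i χ hi hχ l hl hlp A hA σ hσ => ?_)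
    fun e i χ hi hχ => ?_
  · have := Fact.mk hl
    rcases hpole l hl with ⟨hd, hc⟩ | hj
    · refine ⟨1, one_ne_zero, ?_⟩
      have he : e ≠ 0 := fun h => by simp [h] at hi
      have h1 : (B.rep σ - 1) *ᵥ e = (χ σ - 1) • e := by
        rw [sub_mulVec, one_mulVec, hχ, sub_smul, one_smul]
      have h2 := congrArg (· *ᵥ e)
        (FA.Two.rep_inertia_mult B ⟨hΔ, hl, hd, hc, hA⟩ hlp hσ hσ)
      simp only [← mulVec_mulVec, h1, mulVec_smul, smul_smul, zero_mulVec, smul_eq_zero,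
        mul_self_eq_zero, he, or_false] at h2
      rw [pow_one]
      exact sub_eq_zero.mp h2
    · exact exists_pow_eq_one_of_integral hlp hj hA hi hχ hσ
  · by_cases hp' : (p : ℤ) ∣ W.Δ ∧ ¬ (p : ℤ) ∣ W.c₄
    · obtain ⟨A, hA⟩ := FA.Deform.exists_liesOverPrime hp.out
      exact Or.inl ⟨A, ⊤, hA, by rw [Subgroup.index_top]; exact one_ne_zero, fun σ hσ =>
        det_rep_sub_one_of_multAt ⟨hΔ, hp.out, hp'.1, hp'.2, hA⟩ B (Subgroup.mem_inf.mp hσ).1⟩
    · obtain ⟨q, hq, hd, hc⟩ := hmult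
      exact Or.inr ⟨⟨q, hq, fun h => hp' (h ▸ ⟨hd, hc⟩), hd, hc⟩, hKW⟩

end FA.OpenImageJ

end
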