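import Fermat.Agent.OpenImageJ.CyclotomicTwo
import Fermat.Agent.OpenImageJ.KWOdd

/-!
# Abelian `2`-extensions of `ℚ` unramified outside `2` lie in `ℚ(μ_{2^∞})`

Together with the odd primes this is the `p`-part of the theorem of Kronecker and Weber at one
prime, for every `p`.
-/

set_option autoImplicit false
set_option linter.unusedSectionVars false

noncomputable section

local notation "Qb" => AlgebraicClosure ℚ
local notation "GQ" => AlgebraicClosure ℚ ≃ₐ[ℚ] AlgebraicClosure ℚ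

namespace FA.OpenImageJ

/-- A homomorphism to a finite abelian `2`-group, factoring through a number field and unramified
at the odd primes, is trivial where the `2`-adic cyclotomic character is. -/
theorem eq_one_of_cycP_eq_one_two [Fact (Nat.Prime 2)] {M : Type} [CommGroup M] [Finite M]
    (hM : IsPGroup 2 M) (f : GQ →* M) (K : IntermediateField ℚ Qb) [FiniteDimensional ℚ K]
    (hK : ∀ σ : GQ, (∀ x ∈ K, σ x = x) → f σ = 1)
    (hun : ∀ l : ℕ, l.Prime → l ≠ 2 → ∀ A : ValuationSubring Qb, A.LiesOverPrime l →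
      ∀ σ ∈ A.inertiaSubgroupIn ℚ, f σ = 1)
    {σ : GQ} (hσ : FA.JTorsion.cycP 2 σ = 1) : f σ = 1 := by
  obtain ⟨e, he⟩ := IsPGroup.iff_card.mp hM
  refine FA.CycTwo.eq_one_of_fix_roots f (Subgroup.isOpen_mono (H₁ := K.fixingSubgroup)
      (fun τ hτ => hK τ fun x hx => (IntermediateField.mem_fixingSubgroup_iff K τ).mp hτ x hx)
      (IntermediateField.fixingSubgroup_isOpen K))
    (n := e) (fun τ => by rw [← he]; exact pow_card_eq_one')
    (fun l hl hl2 A hA τ hτ => hun l hl hl2 A hA τ hτ) fun μ hμ => ?_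
  obtain ⟨a, -, ha⟩ := FA.PadicImage.exists_exponent_roots σ Nat.prime_two (e + 2)
  have h1 : (a : ZMod (2 ^ (e + 2))) = ((1 : ℕ) : ZMod (2 ^ (e + 2))) := by
    rw [← FA.RT.Tate.cycP_eq_natCast ha, hσ, Units.val_one, map_one, Nat.cast_one]
  rw [ha μ hμ, pow_eq_pow_mod a hμ, (ZMod.natCast_eq_natCast_iff _ _ _).mp h1,
    ← pow_eq_pow_mod 1 hμ, pow_one]

/-- **The `p`-part of Kronecker-Weber at one prime**, for every `p`. -/
theorem eq_one_of_cycP_eq_one {p : ℕ} [Fact p.Prime] {M : Type} [CommGroup M] [Finite M]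
    (hM : IsPGroup p M) (f : GQ →* M) (K : IntermediateField ℚ Qb) [FiniteDimensional ℚ K]
    (hK : ∀ σ : GQ, (∀ x ∈ K, σ x = x) → f σ = 1)
    (hun : ∀ l : ℕ, l.Prime → l ≠ p → ∀ A : ValuationSubring Qb, A.LiesOverPrime l →
      ∀ σ ∈ A.inertiaSubgroupIn ℚ, f σ = 1)
    {σ : GQ} (hσ : FA.JTorsion.cycP p σ = 1) : f σ = 1 := by
  rcases eq_or_ne p 2 with rfl | hp2
  · exact eq_one_of_cycP_eq_one_two hM f K hK hun hσ
  · exact eq_one_of_cycP_eq_one_odd hp2 hM f K hK hun hσ

end FA.OpenImageJ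

end
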