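import Fermat.Agent.Root.InertiaNontrivial
import Fermat.Agent.RT.Tate.Det
import Fermat.Agent.LocalDef.Connected

/-!
# A unipotent element from inertia at a multiplicative prime equal to the residual one

At a multiplicative place over `p` inertia moves every point of the `p`-adic Tate module into the
line of nonsingular reduction, so its commutators are unipotent. They are not all trivial: some
inertia element has determinant other than one, and if the others commuted with it they would fix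
points with infinitely many classes modulo nonsingular reduction.
-/

set_option autoImplicit false
set_option linter.style.haveILetI false

noncomputable section

open Matrix WeierstrassCurve FA.EC FA.Frob FA.RT FA.RT.Tate
open FA.Local
open FA.JTorsion (cycP cycP_toZModPow)
open scoped WeierstrassCurve.Affine

local notation "Qb" => AlgebraicClosure ℚ
local notation "GQ" => AlgebraicClosure ℚ ≃ₐ[ℚ] AlgebraicClosure ℚ
local notation "M2" => Matrix (Fin 2) (Fin 2)

namespace FA.OpenImageJ

/-- A matrix with trace and determinant zero has square zero. -/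
theorem mul_self_eq_smul {R : Type*} [CommRing R] (a : M2 R) (h : a.det = 0) :
    a * a = a.trace • a := by
  rw [det_fin_two] at h
  ext i j
  fin_cases i <;> fin_cases j <;> simp [Matrix.mul_apply, Fin.sum_univ_two, trace_fin_two] <;>
    first | ring1 | linear_combination -h

theorem det_one_add {R : Type*} [CommRing R] (a : M2 R) :
    (1 + a).det = 1 + a.trace + a.det := by
  simp [det_fin_two, trace_fin_two]
  ring

/-- A primitive root of unity moved by inertia at `p`. -/
theorem exists_inertia_moves {p : ℕ} [hp : Fact p.Prime] {A : ValuationSubring Qb}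
    (hA : A.LiesOverPrime p) :
    ∃ σ ∈ A.inertiaSubgroupIn ℚ, ∃ n : ℕ, ∃ μ : Qb, μ ^ p ^ n = 1 ∧ σ μ ≠ μ := by
  rcases eq_or_ne p 2 with rfl | hp2
  · obtain ⟨i, hi⟩ := IsAlgClosed.exists_pow_nat_eq (-1 : Qb) (show 0 < 2 by norm_num)
    by_contra! hcon
    have hfix : ∀ σ ∈ A.inertiaSubgroupIn ℚ, σ (1 + i) = 1 + i := fun σ hσ => by
      rw [map_add, map_one, hcon σ hσ 2 i (by
        rw [show (2 : ℕ) ^ 2 = 2 * 2 by norm_num, pow_mul, hi]; norm_num)]
    have h2 : (2 : Qb) ≠ 0 := two_ne_zero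
    have hne : (1 : Qb) + i ≠ 0 := fun h => h2 (by linear_combination (1 - i) * h + hi)
    obtain ⟨k, hk⟩ := FA.LocalDef.exists_zpow_of_mem_kur Nat.prime_two hA
      (FA.LocalDef.mem_kur.mpr hfix) hne
    have hv : A.valuation (2 : Qb) < 1 := by
      simpa using A.mem_nonunits_iff.mp hA
    have hv0 : 0 < A.valuation (2 : Qb) := A.valuation.pos_iff.mpr h2
    have hi1 : A.valuation i = 1 := by
      have := congrArg A.valuation hi
      rw [map_pow, A.valuation.map_neg, map_one] at this
      exact (pow_eq_one_iff_of_nonneg zero_le two_ne_zero).mp this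
    have hsq := congrArg A.valuation (show (1 + i) ^ 2 = 2 * i by linear_combination hi)
    rw [map_pow, hk, map_mul, hi1, mul_one, Nat.cast_ofNat, ← zpow_natCast, ← _root_.zpow_mul] at hsq
    have := (zpow_right_strictAnti₀ hv0 hv).injective (hsq.trans (zpow_one _).symm)
    omega
  · obtain ⟨ζ, hζ⟩ := HasEnoughRootsOfUnity.exists_primitiveRoot Qb p
    have hp3 : 2 < p := lt_of_le_of_ne hp.out.two_le (Ne.symm hp2)
    obtain ⟨σ, hσ, h⟩ := FA.LocalDef.exists_inertia_zeta hp.out hA hζ (m := 2)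
      (Nat.not_dvd_of_pos_of_lt two_pos hp3)
    refine ⟨σ, hσ, 1, ζ, by rw [pow_one]; exact hζ.pow_eq_one, fun e => ?_⟩
    have := hζ.pow_inj (i := 2) (j := 1) hp3 hp.out.one_lt (by rw [← h, e, pow_one])
    omega

/-- The cyclotomic character is nontrivial on inertia at `p`. -/
theorem exists_inertia_cycP_ne_one {p : ℕ} [hp : Fact p.Prime] {A : ValuationSubring Qb}
    (hA : A.LiesOverPrime p) :
    ∃ σ ∈ A.inertiaSubgroupIn ℚ, ((cycP p σ : ℤ_[p]ˣ) : ℤ_[p]) ≠ 1 := by
  obtain ⟨σ, hσ, n, μ, hμ, hne⟩ := exists_inertia_moves hA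
  refine ⟨σ, hσ, fun h => hne ?_⟩
  have : NeZero (p ^ n) := ⟨pow_ne_zero _ hp.out.ne_zero⟩
  have e := cycP_toZModPow p σ n
  rw [h, map_one] at e
  let t : rootsOfUnity (p ^ n) Qb := rootsOfUnity.mkOfPowEq μ hμ
  have hs := modularCyclotomicCharacter.spec Qb (HasEnoughRootsOfUnity.natCard_rootsOfUnity Qb _)
    σ.toRingEquiv t.2
  rw [← e, ZMod.val_one_eq_one_mod] at hs
  have hmod : μ ^ (1 % p ^ n) = μ := by
    conv_rhs => rw [← pow_one μ, pow_eq_pow_mod 1 hμ]
  simpa [t, hmod] using hs

variable {W : WeierstrassCurve ℤ} [(ratCurve W).IsElliptic] {p : ℕ} [hp : Fact p.Prime]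
  {A : ValuationSubring Qb}

/-- **A nontrivial unipotent element** from inertia at a multiplicative place over `p`. -/
theorem exists_unipotent_of_multAt_self (hm : MultAt W p A) (B : TateBasis p W) :
    ∃ σ : GQ, (B.rep σ - 1) * (B.rep σ - 1) = 0 ∧ B.rep σ ≠ 1 := by
  classical
  obtain ⟨r, N⟩ := exists_nodeData hm
  let U : Set (Fin 2 → ℤ_[p]) := {u | ∀ n, B.φ n u ∈ N.e0Sub}
  have hUsmul : ∀ (c : ℤ_[p]) u, u ∈ U → c • u ∈ U := fun c u hu n => by
    have : NeZero (p ^ n) := ⟨pow_ne_zero _ hp.out.ne_zero⟩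
    rw [show B.φ n (c • u) = B.φ n ((PadicInt.toZModPow n c).val • u) from
      B.phi_eq_iff.mpr fun i => by simp, map_nsmul]
    exact N.e0Sub.nsmul_mem (hu n) _
  have hUadd : ∀ u v, u ∈ U → v ∈ U → u + v ∈ U := fun u v hu hv n => by
    rw [map_add]; exact add_mem (hu n) (hv n)
  have hIU : ∀ σ ∈ A.inertiaSubgroupIn ℚ, ∀ v, (B.rep σ - 1) *ᵥ v ∈ U := fun σ hσ v n => by
    rw [sub_mulVec, one_mulVec, map_sub, ← B.rep_spec]
    exact N.smul_sub_mem_e0Sub hσ _
  obtain ⟨P, hP, hP0⟩ := FA.OpenImage.exists_torsion_not_mem_e0_all (p := p) N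
  obtain ⟨v₁, rfl⟩ := B.surj 1 P (by rwa [pow_one])
  -- the vectors of nonsingular reduction span at most a line
  have hcross : ∀ u v, u ∈ U → v ∈ U → u 0 * v 1 - u 1 * v 0 = 0 := fun u v hu hv => by
    by_contra hd
    set d := u 0 * v 1 - u 1 * v 0
    have hdv : d • v₁ ∈ U := by
      have e : d • v₁ = (v₁ 0 * v 1 - v₁ 1 * v 0) • u + (u 0 * v₁ 1 - u 1 * v₁ 0) • v := by
        funext i; fin_cases i <;> simp [d] <;> ring
      rw [e]; exact hUadd _ _ (hUsmul _ _ hu) (hUsmul _ _ hv)
    have hsp := PadicInt.unitCoeff_spec hd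
    have hk : (p : ℤ_[p]) ^ d.valuation • v₁ ∈ U := by
      have := hUsmul ((PadicInt.unitCoeff hd)⁻¹ : ℤ_[p]ˣ) _ hdv
      rwa [smul_smul, show ((PadicInt.unitCoeff hd)⁻¹ : ℤ_[p]ˣ).val * d =
        (p : ℤ_[p]) ^ d.valuation from
          (congrArg (_ * ·) hsp).trans (Units.inv_mul_cancel_left _ _)] at this
    refine hP0 ?_
    have := hk (1 + d.valuation)
    rwa [← Nat.cast_pow, Nat.cast_smul_eq_nsmul, map_nsmul, B.pow_compat] at this
  have hdet : ∀ σ ∈ A.inertiaSubgroupIn ℚ, (B.rep σ - 1).det = 0 := fun σ hσ => by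
    have := hcross _ _ (hIU σ hσ (Pi.single 0 1)) (hIU σ hσ (Pi.single 1 1))
    rw [det_fin_two]
    simp only [mulVec_single_one, Matrix.col_apply] at this
    linear_combination this
  by_cases hcomm : ∀ σ ∈ A.inertiaSubgroupIn ℚ, ∀ τ ∈ A.inertiaSubgroupIn ℚ,
      B.rep σ * B.rep τ = B.rep τ * B.rep σ
  swap
  · push Not at hcomm
    obtain ⟨σ, hσ, τ, hτ, hne⟩ := hcomm
    set x := σ * τ * σ⁻¹ * τ⁻¹ with hx
    have hxI : x ∈ A.inertiaSubgroupIn ℚ :=
      mul_mem (mul_mem (mul_mem hσ hτ) (inv_mem hσ)) (inv_mem hτ)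
    refine ⟨x, ?_, fun h => hne ?_⟩
    · let f : GQ →* ℤ_[p] := Matrix.detMonoidHom.comp B.rep
      have hdx : (B.rep x).det = 1 := by
        show f x = 1
        rw [hx, map_mul, map_mul, map_mul, mul_right_comm (f σ), mul_assoc, ← map_mul f σ,
          ← map_mul f τ, mul_inv_cancel, mul_inv_cancel, map_one, one_mul]
      have htr : (B.rep x - 1).trace = 0 := by
        have := det_one_add (B.rep x - 1)
        rw [add_sub_cancel, hdx, hdet x hxI] at this
        linear_combination -this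
      rw [mul_self_eq_smul _ (hdet x hxI), htr, zero_smul]
    · calc B.rep σ * B.rep τ = B.rep (x * (τ * σ)) := by rw [← map_mul, hx]; group
        _ = B.rep τ * B.rep σ := by rw [map_mul, h, one_mul, map_mul]
  exfalso
  obtain ⟨σ₀, hσ₀, hc⟩ := exists_inertia_cycP_ne_one (p := p) hm.lies
  set a := B.rep σ₀ - 1 with ha
  set t := a.trace
  have ht : t ≠ 0 := fun h0 => hc <| by
    have := det_one_add a
    rw [ha, add_sub_cancel, ← ha, hdet σ₀ hσ₀] at this
    rw [← B.det_rep, this]
    linear_combination h0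
  have haa : a * a = t • a := mul_self_eq_smul a (hdet σ₀ hσ₀)
  obtain ⟨j, hj⟩ : ∃ j : Fin 2, a.col j ≠ 0 := by
    by_contra! h
    refine ht ?_
    show a.trace = 0
    rw [trace_fin_two, show a 0 0 = a.col 0 0 from rfl, show a 1 1 = a.col 1 1 from rfl, h, h]
    simp
  set e := a.col j with he
  have heU : e ∈ U := by rw [he, ← mulVec_single_one]; exact hIU σ₀ hσ₀ _
  have hae : a *ᵥ e = t • e := by
    rw [he, ← mulVec_single_one, mulVec_mulVec, haa, smul_mulVec]
  have hker : ∀ u, u ∈ U → a *ᵥ u = 0 → u = 0 := fun u hu hau => by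
    have hp' : ∀ i, e i • u = u i • e := fun i => by
      have := hcross u e hu heU
      funext k; fin_cases i <;> fin_cases k <;> simp <;>
        first | ring1 | linear_combination this | linear_combination -this
    funext i
    have := congrArg (fun w => a *ᵥ w) (hp' i)
    simp only [mulVec_smul, hau, hae, smul_zero, smul_smul] at this
    exact (mul_eq_zero.mp ((smul_eq_zero.mp this.symm).resolve_right hj)).resolve_right ht
  obtain ⟨f, hf⟩ := FA.OpenImage.exists_fixed_class N
  set K := Fintype.card (Option (Option (Fin (padicValInt p W.Δ + 1) × Bool))) with hK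
  have hw0 : ∀ v, t • v - a *ᵥ v = 0 := fun v => by
    set w := t • v - a *ᵥ v
    have haw : a *ᵥ w = 0 := by
      rw [mulVec_sub, mulVec_smul, mulVec_mulVec, haa, smul_mulVec, sub_self]
    have hfix : ∀ τ ∈ A.inertiaSubgroupIn ℚ, B.rep τ *ᵥ w = w := fun τ hτ => by
      have hb := hker _ (hIU τ hτ w) (by
        rw [mulVec_mulVec, show a * (B.rep τ - 1) = (B.rep τ - 1) * a by
            simp only [ha, mul_sub, sub_mul, one_mul, mul_one, hcomm _ hσ₀ _ hτ]; abel,
          ← mulVec_mulVec, haw, mulVec_zero])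
      rwa [sub_mulVec, one_mulVec, sub_eq_zero] at hb
    have hwU : K.factorial • w ∈ U := fun n => by
      have hfixn : ∀ k : ℕ, ∀ τ ∈ A.inertiaSubgroupIn ℚ, τ • (k • B.φ n w) = k • B.φ n w :=
        fun k τ hτ => by rw [← map_nsmul, B.rep_spec, mulVec_smul, hfix τ hτ]
      obtain ⟨i, i', hne, he'⟩ := Fintype.exists_ne_map_eq_of_card_lt
        (fun k : Fin (K + 1) => f (k.1 • B.φ n w)) (by rw [Fintype.card_fin, hK]; omega)
      wlog hlt : i < i' generalizing i i'
      · exact this i' i hne.symm he'.symm (lt_of_le_of_ne (not_lt.mp hlt) hne.symm)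
      have hd := hf _ _ (hfixn i'.1) (hfixn i.1) he'.symm
      rw [sub_eq_add_neg, ← sub_nsmul _ hlt.le] at hd
      obtain ⟨m, hm'⟩ : i'.1 - i.1 ∣ K.factorial :=
        Nat.dvd_factorial (Nat.sub_pos_of_lt hlt) (by have := i'.2; omega)
      rw [map_nsmul, hm', mul_nsmul]
      exact N.e0Sub.nsmul_mem hd m
    have := hker _ hwU (by rw [mulVec_smul, haw, smul_zero])
    exact (smul_eq_zero.mp this).resolve_left K.factorial_ne_zero
  have hat : a = t • 1 := Matrix.ext_iff_mulVec.mpr fun v => by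
    rw [smul_mulVec, one_mulVec]; exact (sub_eq_zero.mp (hw0 v)).symm
  have := hdet σ₀ hσ₀
  rw [← ha, hat, det_smul, det_one, mul_one] at this
  exact ht (pow_eq_zero_iff'.mp this).1

end FA.OpenImageJ

end
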