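import Fermat.Agent.OpenImageJ.KWTwo
import Fermat.Agent.OpenImageJ.SolePole
import Fermat.Agent.OpenImageJ.StableLine
import Fermat.Agent.Root.SummarySerreOpenImageAdelic
import Fermat.Agent.Root.SummarySurjectiveLarge

/-!
# The open image of an equation with multiplicative reduction at the poles of its invariant

If the invariant has a pole and the equation has multiplicative reduction at every pole, then for
every prime `p` the image on the Tate module is open, for all large primes it is everything, and so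
one level serves all torsion.
-/

set_option autoImplicit false
set_option linter.unusedSectionVars false
set_option linter.style.haveILetI false

noncomputable section

open Matrix WeierstrassCurve FA.EC FA.Frob FA.RT FA.RT.Tate
open scoped WeierstrassCurve.Affine

local notation "Qb" => AlgebraicClosure ℚ
local notation "GQ" => AlgebraicClosure ℚ ≃ₐ[ℚ] AlgebraicClosure ℚ

namespace FA.OpenImageJ

/-- The `p`-part of the theorem of Kronecker and Weber holds for every prime. -/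
theorem kwProp (p : ℕ) [Fact p.Prime] : KWProp p :=
  fun _M _ _ hM f K _hK hfix hun _σ hσ => eq_one_of_cycP_eq_one hM f K hfix hun hσ

variable {E : WeierstrassCurve ℚ} [E.IsElliptic] {W : WeierstrassCurve ℤ}
  [(ratCurve W).IsElliptic]

/-- **The open image at every prime** for an equation with multiplicative reduction at the poles of
the invariant, of which there is one. -/
theorem exists_level (hW : W.IsIntegralModelOf E)
    (hpole : ∀ q : ℕ, q.Prime → padicValRat q E.j < 0 → (q : ℤ) ∣ W.Δ ∧ ¬ (q : ℤ) ∣ W.c₄)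
    (h : ∃ q : ℕ, q.Prime ∧ padicValRat q E.j < 0) {p : ℕ} [hp : Fact p.Prime]
    (B : TateBasis p W) : ∃ k : ℕ, 0 < k ∧ ∀ Y : Matrix (Fin 2) (Fin 2) ℤ_[p],
      IsUnit (1 + (p : ℤ_[p]) ^ k • Y).det → ∃ σ, B.rep σ = 1 + (p : ℤ_[p]) ^ k • Y := by
  obtain ⟨q, hq, hj⟩ := h
  have hΔ := FA.Frob.Δ_ne_zero_of_model hW
  have hjW : (ratCurve W).j = E.j := FA.OggShafarevich.j_ratCurve hW
  obtain ⟨hd, hc⟩ := hpole q hq hj
  have hline : NoStableLine B := noStableLine_of_pole B (fun l hl => by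
      rw [hjW]
      rcases lt_or_ge (padicValRat l E.j) 0 with hneg | hnn
      · exact Or.inl (hpole l hl hneg)
      · exact Or.inr hnn) ⟨q, hq, hd, hc⟩ (kwProp p)
  obtain ⟨A, hA⟩ := FA.Deform.exists_liesOverPrime hq
  rcases eq_or_ne q p with rfl | hqp
  · obtain ⟨σ, hsq, hne⟩ := exists_unipotent_of_multAt_self ⟨hΔ, hq, hd, hc, hA⟩ B
    obtain ⟨k, hk⟩ := FA.PadicImage.exists_level_of_unipotent B hline hsq hne
    refine ⟨k + 1, k.succ_pos, fun Y => ?_⟩
    rw [pow_succ, mul_smul]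
    exact hk _
  · exact exists_level_of_multAt ⟨hΔ, hq, hd, hc, hA⟩ hqp hline

/-- **Full image at the large primes**. -/
theorem exists_reachAll (hW : W.IsIntegralModelOf E)
    (hmult : ∃ q : ℕ, q.Prime ∧ (q : ℤ) ∣ W.Δ ∧ ¬ (q : ℤ) ∣ W.c₄) :
    ∃ L : ℕ, 5 ≤ L ∧ ∀ l : ℕ, L ≤ l → ∀ [Fact l.Prime], FA.PadicImage.ReachAll l W := by
  obtain ⟨q, hq, hd, hc⟩ := hmult
  haveI := Fact.mk hq
  have hΔ := FA.Frob.Δ_ne_zero_of_model hW
  obtain ⟨M, hM⟩ := FA.Summary.noStableSubgroup_large E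
  refine ⟨M + padicValInt q W.Δ + 5, by omega, fun l hl _ =>
    FA.PadicImage.reachAll_of_base (by omega) fun B N hN => ?_⟩
  have hv : ¬ l ∣ padicValInt q W.Δ := fun hdvd => by
    have := Nat.le_of_dvd (FA.IsogenyPrimes.padicValInt_Δ_pos hΔ hd) hdvd
    omega
  have hirr := FA.Root.Irred.modRepIsIrreducible_of_noStableSubgroup hW
    (hM l Fact.out (by omega))
  obtain ⟨σ, hσ⟩ := FA.IsogenyPrimes.exists_curveRep_eq_of_mult (by omega) hirr hΔ hd hc hv N hN
  exact ⟨σ, (FA.PadicImage.rep_map_toZMod B σ).trans hσ⟩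

/-- **One level for all `N`**. -/
theorem exists_uniform_level (hW : W.IsIntegralModelOf E)
    (hpole : ∀ q : ℕ, q.Prime → padicValRat q E.j < 0 → (q : ℤ) ∣ W.Δ ∧ ¬ (q : ℤ) ∣ W.c₄)
    (h : ∃ q : ℕ, q.Prime ∧ padicValRat q E.j < 0) :
    ∃ m : ℕ, 0 < m ∧ ∀ N : ℕ, N ≠ 0 →
      ∀ φ : Submodule.torsionBy ℤ (Pts W) (N : ℤ) ≃+ Submodule.torsionBy ℤ (Pts W) (N : ℤ),
        (∀ x, m • x.1 = 0 → φ x = x) → ∃ σ : GQ, ∀ x, σ • x.1 = (φ x).1 := by
  obtain ⟨L, hL, hreach⟩ := exists_reachAll hW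
    (h.imp fun q hq => ⟨hq.1, hpole q hq.1 hq.2⟩)
  exact FA.OpenImage.exists_uniform_level_of hL (fun p _ _ B => exists_level hW hpole h B) hreach

/-- **The levels of all primes have one bound.** -/
theorem exists_levels (hW : W.IsIntegralModelOf E)
    (hpole : ∀ q : ℕ, q.Prime → padicValRat q E.j < 0 → (q : ℤ) ∣ W.Δ ∧ ¬ (q : ℤ) ∣ W.c₄)
    (h : ∃ q : ℕ, q.Prime ∧ padicValRat q E.j < 0) :
    ∃ m : ℕ, 0 < m ∧ ∀ (l : ℕ) [Fact l.Prime], ∃ (k : ℕ) (B : TateBasis l W), l ^ k ∣ m ∧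
      ∀ Y : Matrix (Fin 2) (Fin 2) ℤ_[l],
        IsUnit (1 + (l : ℤ_[l]) ^ k • Y).det → ∃ σ, B.rep σ = 1 + (l : ℤ_[l]) ^ k • Y := by
  obtain ⟨L, -, hreach⟩ := exists_reachAll hW (h.imp fun q hq => ⟨hq.1, hpole q hq.1 hq.2⟩)
  exact FA.OpenImage.exists_levels_of (fun l _ _ B => exists_level hW hpole h B) hreach

end FA.OpenImageJ

end
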