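import Fermat.Agent.OpenImageJ.KWTwo
import Fermat.Agent.TW.TameImage

/-!
# Homomorphisms from the Galois group of `ℚ` to `ℤ_p`

They are the multiples of one of them, the logarithm of the cyclotomic character divided by
`2p` or `8`. The ingredients are the tame relation (no ramification at `l ≠ p`) and the
Kronecker-Weber statements at one prime.
-/

set_option autoImplicit false

noncomputable section

local notation "Qb" => AlgebraicClosure ℚ
local notation "GQ" => AlgebraicClosure ℚ ≃ₐ[ℚ] AlgebraicClosure ℚ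

namespace FA.ZpHom

open FA.JTorsion (cycP)

theorem eq_one_zmod_two : ∀ {a : ZMod 2}, a ≠ 0 → a = 1 := by decide

theorem mul_add_one_zmod_two : ∀ a : ZMod 2, a * (a + 1) = 0 := by decide

variable {p : ℕ} [hp : Fact p.Prime]

theorem eq_zero_of_forall_dvd {z : ℤ_[p]} (h : ∀ n : ℕ, (p : ℤ_[p]) ^ n ∣ z) : z = 0 := by
  refine PadicInt.ext_of_toZModPow.mp fun n => ?_
  rw [map_zero, ← RingHom.mem_ker, PadicInt.ker_toZModPow, Ideal.mem_span_singleton]
  exact h n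

theorem dvd_iff_toZModPow {z : ℤ_[p]} {n : ℕ} :
    (p : ℤ_[p]) ^ n ∣ z ↔ PadicInt.toZModPow n z = 0 := by
  rw [← RingHom.mem_ker, PadicInt.ker_toZModPow, Ideal.mem_span_singleton]

/-- Continuity, as triviality modulo `p ^ n` over a number field. -/
def Lev (η : GQ → ℤ_[p]) : Prop :=
  ∀ n : ℕ, ∃ K : IntermediateField ℚ Qb, FiniteDimensional ℚ K ∧
    ∀ s : GQ, (∀ x ∈ K, s x = x) → (p : ℤ_[p]) ^ n ∣ η s

/-- Reduction modulo `p ^ n` of an additive map. -/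
def modN (η : GQ → ℤ_[p]) (hη : ∀ a b, η (a * b) = η a + η b) (n : ℕ) :
    GQ →* Multiplicative (ZMod (p ^ n)) :=
  MonoidHom.mk' (fun s => Multiplicative.ofAdd (PadicInt.toZModPow n (η s))) fun a b => by
    rw [hη, map_add, ofAdd_add]

section Unramified

variable {η : GQ → ℤ_[p]} (hη : ∀ a b, η (a * b) = η a + η b) (hL : Lev η)
include hη

theorem modN_eq_one_iff {n : ℕ} {s : GQ} : modN η hη n s = 1 ↔ (p : ℤ_[p]) ^ n ∣ η s := by
  rw [dvd_iff_toZModPow]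
  exact Multiplicative.ofAdd.injective.eq_iff' rfl

include hL

/-- Away from `p` such a map kills inertia. -/
theorem apply_inertia {l : ℕ} (hl : l.Prime) (hlp : l ≠ p) {A : ValuationSubring Qb}
    (hA : A.LiesOverPrime l) {s : GQ} (hs : s ∈ A.inertiaSubgroupIn ℚ) : η s = 0 := by
  have h0 : ((l - 1 : ℕ) : ℤ_[p]) * η s = 0 := eq_zero_of_forall_dvd fun n => by
    obtain ⟨K, hK, hKn⟩ := hL n
    let f : A.inertiaSubgroupIn ℚ →* Multiplicative (ZMod (p ^ n)) :=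
      (modN η hη n).comp (A.inertiaSubgroupIn ℚ).subtype
    obtain ⟨ψ, -, hker, hψ, hconj⟩ := FA.TW.exists_tame_character hp.out hl (Ne.symm hlp) hA f
      (U₀ := K.fixingSubgroup) (IntermediateField.fixingSubgroup_isOpen K)
      (fun σ hσ => (modN_eq_one_iff hη).2
        (hKn _ ((IntermediateField.mem_fixingSubgroup_iff _ _).1 hσ)))
      (fun σ => ⟨n, by
        refine Multiplicative.toAdd.injective ?_
        rw [toAdd_pow, toAdd_one, nsmul_eq_mul, ZMod.natCast_self, zero_mul]⟩)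
    obtain ⟨φ, hφ⟩ := FA.Deform.exists_isFrobeniusAt hl hA
    have hcomm : ∀ σ σ' : A.inertiaSubgroupIn ℚ, (σ' : GQ) = φ * σ * φ⁻¹ → f σ' = f σ :=
      fun σ σ' h => by
        show modN η hη n σ' = modN η hη n σ
        rw [h, map_mul, map_mul, mul_comm (modN η hη n φ), mul_assoc, ← map_mul, mul_inv_cancel,
          map_one, mul_one]
    have hmem : φ * s * φ⁻¹ ∈ A.inertiaSubgroupIn ℚ :=
      FA.TW.conj_mem_inertia_of_mem hφ.mem_decompositionSubgroup hs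
    let σ : A.inertiaSubgroupIn ℚ := ⟨s, hs⟩
    let σ' : A.inertiaSubgroupIn ℚ := ⟨_, hmem⟩
    have h1 := hconj φ hφ (fun a b h ha => (hcomm a b h).trans ha) σ σ' rfl
    have h2 : ψ (σ⁻¹ * σ') = 1 := hψ _ (by
      rw [map_mul, hcomm σ σ' rfl, ← map_mul, inv_mul_cancel, map_one])
    have h3 : ψ σ' = ψ σ := by
      rw [show σ' = σ * (σ⁻¹ * σ') from (mul_inv_cancel_left _ _).symm, map_mul, h2, mul_one]
    have h4 : ψ σ ^ (l - 1) = 1 := mul_left_cancel₀ (ψ.toHomUnits σ).ne_zero (by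
      show ψ σ * ψ σ ^ (l - 1) = ψ σ * 1
      rw [← pow_succ', Nat.sub_add_cancel hl.one_le, mul_one, ← h1, h3])
    have h5 := congrArg Multiplicative.toAdd (hker (σ ^ (l - 1)) (by rw [map_pow, h4]))
    rw [map_pow, toAdd_pow, toAdd_one, nsmul_eq_mul] at h5
    rw [dvd_iff_toZModPow, map_mul, map_natCast]
    exact h5
  refine (mul_eq_zero.1 h0).resolve_left ?_
  have := hl.two_le
  exact_mod_cast (show l - 1 ≠ 0 by omega)

/-- Such a map kills the kernel of the cyclotomic character. -/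
theorem eq_zero_of_cycP {σ : GQ} (hσ : cycP p σ = 1) : η σ = 0 := eq_zero_of_forall_dvd fun n => by
  obtain ⟨K, hK, hKn⟩ := hL n
  have : NeZero (p ^ n) := ⟨pow_ne_zero _ hp.out.ne_zero⟩
  have hM : IsPGroup p (Multiplicative (ZMod (p ^ n))) := IsPGroup.of_card (n := n) (by
    rw [Nat.card_congr Multiplicative.toAdd, Nat.card_zmod])
  have h1 := fun s hs => (modN_eq_one_iff hη (n := n)).2 (hKn s hs)
  have h2 : ∀ l : ℕ, l.Prime → l ≠ p → ∀ A : ValuationSubring Qb, A.LiesOverPrime l →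
      ∀ s ∈ A.inertiaSubgroupIn ℚ, modN η hη n s = 1 := fun l hl hlp A hA s hs =>
    (modN_eq_one_iff hη).2 (apply_inertia hη hL hl hlp hA hs ▸ dvd_zero _)
  exact (modN_eq_one_iff hη).1 (FA.OpenImageJ.eq_one_of_cycP_eq_one hM _ K h1 h2 hσ)

end Unramified

/-! ### The logarithm -/

variable (p)

/-- The exponent taking units into the domain of the logarithm. -/
def expN : ℕ := if p = 2 then 2 else p - 1

/-- The modulus of the domain of the logarithm. -/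
def logQ : ℤ_[p] := if p = 2 then 8 else p

theorem expN_pos : 0 < expN p := by
  rw [expN]; split_ifs with h
  · norm_num
  · exact Nat.sub_pos_of_lt hp.out.one_lt

theorem logQ_ne_zero : logQ p ≠ 0 := by
  rw [logQ]; split_ifs
  · norm_num
  · exact_mod_cast hp.out.ne_zero

theorem dvd_logQ : (p : ℤ_[p]) ∣ logQ p := by
  rw [logQ]; split_ifs with h
  · subst h; exact ⟨4, by norm_num⟩
  · exact dvd_rfl

theorem logQ_dvd_cube : logQ p ∣ (p : ℤ_[p]) ^ 3 := by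
  rw [logQ]; split_ifs with h
  · subst h; exact ⟨1, by norm_num⟩
  · exact dvd_pow_self _ (by norm_num)

theorem logQ_dvd_pow_sub (x : ℤ_[p]ˣ) : logQ p ∣ (x : ℤ_[p]) ^ expN p - 1 := by
  have hx : PadicInt.toZMod (x : ℤ_[p]) ≠ 0 := (x.isUnit.map PadicInt.toZMod).ne_zero
  have hker : ∀ z : ℤ_[p], PadicInt.toZMod z = 0 ↔ (p : ℤ_[p]) ∣ z := fun z => by
    rw [← RingHom.mem_ker, PadicInt.ker_toZMod, PadicInt.maximalIdeal_eq_span_p,
      Ideal.mem_span_singleton]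
  rw [expN, logQ]; split_ifs with h
  · subst h
    obtain ⟨u, hu⟩ := (hker ((x : ℤ_[2]) - 1)).1 (by rw [map_sub, eq_one_zmod_two hx, map_one, sub_self])
    obtain ⟨w, hw⟩ := (hker (u * (u + 1))).1 (by rw [map_mul, map_add, map_one]; exact mul_add_one_zmod_two _)
    rw [Nat.cast_ofNat] at hu hw
    rw [sub_eq_iff_eq_add.1 hu]
    exact ⟨w, by linear_combination 4 * hw⟩
  · exact (hker _).1 (by rw [map_sub, map_pow, ZMod.pow_card_sub_one_eq_one hx, map_one, sub_self])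

theorem sq_dvd_geom_sum {y : ℤ_[p]} (hy : logQ p ∣ y - 1) :
    (p : ℤ_[p]) ^ 2 ∣ ∑ i ∈ Finset.range p, y ^ i - p := by
  rw [logQ] at hy; split_ifs at hy with h
  · subst h
    obtain ⟨b, hb⟩ := hy
    refine ⟨2 * b, ?_⟩
    rw [Finset.sum_range_succ, Finset.sum_range_one, pow_zero, pow_one, Nat.cast_ofNat]
    linear_combination hb
  · obtain ⟨b, hb⟩ := hy
    have h2 := odd_sq_dvd_geom_sum₂_sub (R := ℤ_[p]) (a := 1) b (hp.out.odd_of_ne_two h)
    simp only [one_pow, mul_one] at h2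
    rw [sub_eq_iff_eq_add'.1 hb]
    exact h2

/-- The digits defining the logarithm. -/
theorem exists_digit {y : ℤ_[p]} {a₀ : ℤ_[p]} (ha₀ : y = 1 + logQ p * a₀) :
    ∀ n : ℕ, ∃ a, y ^ p ^ n = 1 + logQ p * (p : ℤ_[p]) ^ n * a ∧ ∃ c, a = a₀ * c ∧ (p : ℤ_[p]) ∣ c - 1
  | 0 => ⟨a₀, by rw [pow_zero, pow_one, pow_zero, mul_one, ha₀], 1, (mul_one _).symm, by simp⟩
  | n + 1 => by
    obtain ⟨a, ha, c, hac, d, hd⟩ := exists_digit ha₀ n
    obtain ⟨w, hw⟩ := sq_dvd_geom_sum p (y := y ^ p ^ n)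
      ⟨(p : ℤ_[p]) ^ n * a, by rw [ha]; ring⟩
    refine ⟨a * (1 + p * w), ?_, c * (1 + p * w), by rw [hac]; ring, d + c * w,
      by linear_combination hd⟩
    have h1 := geom_sum_mul (y ^ p ^ n) p
    rw [sub_eq_iff_eq_add.1 hw, ← pow_mul, ← pow_succ] at h1
    linear_combination -h1 + ((p : ℤ_[p]) ^ 2 * w + p) * ha

theorem digit_unique {y a b : ℤ_[p]} {n : ℕ} (ha : y = 1 + logQ p * (p : ℤ_[p]) ^ n * a)
    (hb : y = 1 + logQ p * (p : ℤ_[p]) ^ n * b) : a = b :=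
  mul_left_cancel₀ (mul_ne_zero (logQ_ne_zero p) (pow_ne_zero _ (Nat.cast_ne_zero.2 hp.out.ne_zero)))
    (add_left_cancel (ha.symm.trans hb))

theorem digit_step {y a b : ℤ_[p]} {n : ℕ}
    (ha : y = 1 + logQ p * (p : ℤ_[p]) ^ n * a)
    (hb : y ^ p = 1 + logQ p * (p : ℤ_[p]) ^ (n + 1) * b) : (p : ℤ_[p]) ^ n ∣ b - a := by
  obtain ⟨c, hc⟩ := dvd_logQ p
  obtain ⟨w, hw⟩ : (p : ℤ_[p]) ^ (n + 1) ∣ ∑ i ∈ Finset.range p, y ^ i - p := by
    have : (p : ℤ_[p]) ^ (n + 1) ∣ ∑ i ∈ Finset.range p, (y ^ i - 1) :=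
      Finset.dvd_sum fun i _ => (show (p : ℤ_[p]) ^ (n + 1) ∣ y - 1 from
        ⟨c * a, by rw [ha, hc]; ring⟩).trans (sub_one_dvd_pow_sub_one y i)
    simpa using this
  refine ⟨w * a, ?_⟩
  have h1 := geom_sum_mul y p
  rw [sub_eq_iff_eq_add.1 hw] at h1
  have h2 : logQ p * (p : ℤ_[p]) ^ (n + 1) * (b - a) =
      logQ p * (p : ℤ_[p]) ^ (n + 1) * ((p : ℤ_[p]) ^ n * (w * a)) := by
    rw [mul_sub]
    linear_combination -hb - h1 + ((p : ℤ_[p]) ^ (n + 1) * w + p) * ha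
  exact mul_left_cancel₀ (mul_ne_zero (logQ_ne_zero p)
    (pow_ne_zero _ (Nat.cast_ne_zero.2 hp.out.ne_zero))) h2

/-- The logarithm, by its characterisation. -/
theorem exists_log (x : ℤ_[p]ˣ) : ∃ z : ℤ_[p], ∀ (n : ℕ) (a : ℤ_[p]),
    (x : ℤ_[p]) ^ (expN p * p ^ n) = 1 + logQ p * (p : ℤ_[p]) ^ n * a →
      (p : ℤ_[p]) ^ n ∣ z - a := by
  obtain ⟨a₀, ha₀⟩ := logQ_dvd_pow_sub p x
  choose a ha _ using exists_digit p (y := (x : ℤ_[p]) ^ expN p) (a₀ := a₀)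
    (by rw [← ha₀]; ring)
  have hstep : ∀ n, (p : ℤ_[p]) ^ n ∣ a (n + 1) - a n := fun n =>
    digit_step p (ha n) (by rw [← pow_mul ((x : ℤ_[p]) ^ expN p), ← pow_succ, ha (n + 1)])
  have hle : ∀ {m n : ℕ}, m ≤ n → (p : ℤ_[p]) ^ m ∣ a n - a m := fun {m n} h => by
    induction h with
    | refl => simp
    | @step k hk ih =>
      rw [show a (k + 1) - a m = (a (k + 1) - a k) + (a k - a m) by ring]
      exact dvd_add ((pow_dvd_pow _ hk).trans (hstep k)) ih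
  obtain ⟨z, hz⟩ := IsPrecomplete.prec
    (inferInstance : IsPrecomplete (IsLocalRing.maximalIdeal ℤ_[p]) ℤ_[p]) (f := a)
    fun {m n} h => by
      rw [SModEq.sub_mem, Ideal.smul_top_eq_map, Algebra.algebraMap_self, Ideal.map_id,
        Submodule.restrictScalars_mem, PadicInt.maximalIdeal_eq_span_p, Ideal.span_singleton_pow,
        Ideal.mem_span_singleton]
      exact dvd_sub_comm.1 (hle h)
  refine ⟨z, fun n b hb => ?_⟩
  have h := hz n
  rw [SModEq.sub_mem, Ideal.smul_top_eq_map, Algebra.algebraMap_self, Ideal.map_id,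
    Submodule.restrictScalars_mem, PadicInt.maximalIdeal_eq_span_p, Ideal.span_singleton_pow,
    Ideal.mem_span_singleton] at h
  rw [digit_unique p (y := (x : ℤ_[p]) ^ (expN p * p ^ n)) hb (by rw [pow_mul]; exact ha n)]
  exact dvd_sub_comm.1 h

/-- The logarithm of a unit, normalised. -/
def logU (x : ℤ_[p]ˣ) : ℤ_[p] := (exists_log p x).choose

theorem logU_spec (x : ℤ_[p]ˣ) (n : ℕ) (a : ℤ_[p])
    (h : (x : ℤ_[p]) ^ (expN p * p ^ n) = 1 + logQ p * (p : ℤ_[p]) ^ n * a) :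
    (p : ℤ_[p]) ^ n ∣ logU p x - a :=
  (exists_log p x).choose_spec n a h

theorem exists_logDigit (x : ℤ_[p]ˣ) : ∃ a₀, (x : ℤ_[p]) ^ expN p = 1 + logQ p * a₀ ∧ ∀ n, ∃ a,
    (x : ℤ_[p]) ^ (expN p * p ^ n) = 1 + logQ p * (p : ℤ_[p]) ^ n * a ∧ ∃ c, a = a₀ * c ∧ (p : ℤ_[p]) ∣ c - 1 := by
  obtain ⟨a₀, ha₀⟩ := logQ_dvd_pow_sub p x
  refine ⟨a₀, by rw [← ha₀]; ring, fun n => ?_⟩
  obtain ⟨a, h⟩ := exists_digit p (y := (x : ℤ_[p]) ^ expN p) (a₀ := a₀) (by rw [← ha₀]; ring) n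
  exact ⟨a, by rw [pow_mul]; exact h⟩

theorem logU_mul (x y : ℤ_[p]ˣ) : logU p (x * y) = logU p x + logU p y := by
  refine sub_eq_zero.1 (eq_zero_of_forall_dvd fun n => ?_)
  obtain ⟨_, -, hx⟩ := exists_logDigit p x
  obtain ⟨_, -, hy⟩ := exists_logDigit p y
  obtain ⟨a, ha, -⟩ := hx n
  obtain ⟨b, hb, -⟩ := hy n
  have h := logU_spec p (x * y) n (a + b + logQ p * (p : ℤ_[p]) ^ n * a * b) (by
    rw [Units.val_mul, mul_pow, ha, hb]; ring)
  obtain ⟨u, hu⟩ := h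
  obtain ⟨v, hv⟩ := logU_spec p x n a ha
  obtain ⟨w, hw⟩ := logU_spec p y n b hb
  exact ⟨u - v - w + logQ p * a * b, by linear_combination hu - hv - hw⟩

/-- The logarithm kills roots of unity only. -/
theorem pow_expN_eq_one_of_logU {x : ℤ_[p]ˣ} (h : logU p x = 0) : x ^ expN p = 1 := by
  obtain ⟨a₀, ha₀, hx⟩ := exists_logDigit p x
  refine Units.ext ?_
  rw [Units.val_pow_eq_pow_val, Units.val_one, ha₀]
  rw [eq_zero_of_forall_dvd (z := a₀) fun n => ?_, mul_zero, add_zero]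
  obtain ⟨a, ha, c, rfl, hc⟩ := hx n
  have hd := logU_spec p x n _ ha
  rw [h, zero_sub, dvd_neg] at hd
  refine (PadicInt.prime_p (p := p)).pow_dvd_of_dvd_mul_right n (fun hpc => ?_) hd
  exact (PadicInt.prime_p (p := p)).not_isUnit (isUnit_of_dvd_one (by simpa using dvd_sub hpc hc))

/-- The logarithm is congruent to the first digit modulo `p`. -/
theorem dvd_logU_sub {x : ℤ_[p]ˣ} {a₀ : ℤ_[p]} (h : (x : ℤ_[p]) ^ expN p = 1 + logQ p * a₀) :
    (p : ℤ_[p]) ∣ logU p x - a₀ := by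
  obtain ⟨a, ha, c, rfl, hc⟩ := exists_digit p (y := (x : ℤ_[p]) ^ expN p) h 1
  obtain ⟨d, hd⟩ := logU_spec p x 1 _ (by rw [pow_mul]; exact ha)
  obtain ⟨e, he⟩ := hc
  exact ⟨d + a₀ * e, by linear_combination hd + a₀ * he⟩

/-- The logarithm is continuous. -/
theorem pow_dvd_logU {x : ℤ_[p]ˣ} {n : ℕ}
    (h : (p : ℤ_[p]) ^ (n + 3) ∣ (x : ℤ_[p]) - 1) : (p : ℤ_[p]) ^ n ∣ logU p x := by
  obtain ⟨a₀, ha₀, hx⟩ := exists_logDigit p x
  have h0 : (p : ℤ_[p]) ^ n ∣ a₀ := by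
    obtain ⟨e, he⟩ := logQ_dvd_cube p
    obtain ⟨f, hf⟩ := h.trans (sub_one_dvd_pow_sub_one (x : ℤ_[p]) (expN p))
    refine ⟨e * f, mul_left_cancel₀ (logQ_ne_zero p) ?_⟩
    rw [ha₀, pow_add] at hf
    linear_combination hf + (p : ℤ_[p]) ^ n * f * he
  obtain ⟨a, ha, c, rfl, -⟩ := hx n
  simpa using dvd_add (logU_spec p x n _ ha) (h0.mul_right c)

end FA.ZpHom

end
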